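import Fermat.Agent.EC.Mult.Ramification
import Fermat.Agent.EC.Det.CyclotomicChar
import Mathlib.RingTheory.Polynomial.Cyclotomic.Eval

/-!
# The mod `p` cyclotomic character is nontrivial on inertia at `p`
-/

noncomputable section

namespace Fermat.Agent.RT

local notation "ℚ̄" => AlgebraicClosure ℚ
local notation "Γℚ" => (AlgebraicClosure ℚ ≃ₐ[ℚ] AlgebraicClosure ℚ)

/-- For odd `p`, some inertia element at `p` acts nontrivially on `μ_p`. -/
theorem exists_mem_inertia_cycloChar_ne_one {p : ℕ} [NeZero p] (hp : p.Prime) (hp2 : p ≠ 2)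
    {P : ValuationSubring ℚ̄} (hP : P.LiesOverPrime p) :
    ∃ σ ∈ P.inertiaSubgroupIn ℚ, EC.cycloChar p σ ≠ 1 := by
  have : Fact p.Prime := ⟨hp⟩
  by_contra! hall
  obtain ⟨ζ, hζ⟩ := EC.exists_primitiveRoot_qbar p
  have hfix : ∀ σ ∈ P.inertiaSubgroupIn ℚ, σ ζ = ζ := by
    intro σ hσ
    rw [EC.apply_eq_pow_cycloChar p σ hζ.pow_eq_one, hall σ hσ, Units.val_one, ZMod.val_one,
      pow_one]
  -- `(1 - ζ) ^ (p - 1)` is a unit multiple of `p`
  have hprod : ∏ k ∈ Finset.Ico 1 p, (1 - ζ ^ k) = (p : ℚ̄) := by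
    have h := Polynomial.eval_one_cyclotomic_prime (R := ℚ̄) (p := p)
    rw [Polynomial.cyclotomic_eq_prod_X_sub_primitiveRoots hζ, Polynomial.eval_prod] at h
    rw [← h]
    refine Finset.prod_bij (fun k _ => ζ ^ k) ?_ ?_ ?_ (fun k _ => by simp)
    · intro k hk
      rw [Finset.mem_Ico] at hk
      rw [mem_primitiveRoots hp.pos]
      exact hζ.pow_of_coprime k
        ((hp.coprime_iff_not_dvd.mpr (Nat.not_dvd_of_pos_of_lt hk.1 hk.2)).symm)
    · intro a ha b hb hab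
      rw [Finset.mem_Ico] at ha hb
      exact hζ.pow_inj ha.2 hb.2 hab
    · intro x hx
      rw [mem_primitiveRoots hp.pos] at hx
      obtain ⟨i, hi, rfl⟩ := hζ.eq_pow_of_pow_eq_one hx.pow_eq_one
      refine ⟨i, Finset.mem_Ico.mpr ⟨Nat.one_le_iff_ne_zero.mpr ?_, hi⟩, rfl⟩
      rintro rfl
      exact hx.ne_one hp.one_lt (pow_zero ζ)
  have hval : ∀ k ∈ Finset.Ico 1 p, P.valuation (1 - ζ ^ k) = P.valuation (1 - ζ) := by
    intro k hk
    rw [Finset.mem_Ico] at hk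
    have hle : ∀ (x : ℚ̄) (j : ℕ), x ^ p = 1 → P.valuation (1 - x ^ j) ≤ P.valuation (1 - x) := by
      intro x j hx
      rw [← geom_sum_mul_neg, map_mul]
      refine mul_le_of_le_one_left zero_le ((P.valuation_le_one_iff _).mpr ?_)
      exact sum_mem fun i _ => pow_mem (EC.mem_of_pow_eq_one P hp.ne_zero hx) i
    refine le_antisymm (hle ζ k hζ.pow_eq_one) ?_
    obtain ⟨j, -, hj⟩ := (hζ.pow_of_coprime k ((hp.coprime_iff_not_dvd.mpr
      (Nat.not_dvd_of_pos_of_lt hk.1 hk.2)).symm)).eq_pow_of_pow_eq_one hζ.pow_eq_one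
    calc P.valuation (1 - ζ) = P.valuation (1 - (ζ ^ k) ^ j) := by rw [hj]
      _ ≤ _ := hle _ j (by rw [← pow_mul, mul_comm, pow_mul, hζ.pow_eq_one, one_pow])
  obtain ⟨m, hm⟩ := EC.Mult.exists_zpow_of_inertia_fixed hp hP
    (sub_ne_zero.mpr (hζ.ne_one hp.one_lt).symm)
    fun σ hσ => by rw [map_sub, map_one, hfix σ hσ]
  have hv : P.valuation (1 - ζ) ^ (p - 1) = P.valuation (p : ℚ̄) := by
    rw [← hprod, map_prod, Finset.prod_congr rfl hval, Finset.prod_const, Nat.card_Ico]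
  rw [hm, ← zpow_natCast, ← zpow_mul] at hv
  conv_rhs at hv => rw [← zpow_one (P.valuation (p : ℚ̄))]
  have hmp : m * ((p - 1 : ℕ) : ℤ) = 1 :=
    zpow_right_injective₀ (zero_lt_iff.2 (EC.Mult.valuation_natCast_ne_zero hp))
      (EC.Mult.valuation_natCast_lt_one hP).ne hv
  have h1 : ((p - 1 : ℕ) : ℤ) ∣ 1 := ⟨m, by rw [← hmp, mul_comm]⟩
  have h2 := Int.eq_one_of_dvd_one (by positivity) h1
  have := hp.two_le
  omega

/-- An inertia element at `p` whose determinant, if cyclotomic, is not `1` modulo the maximal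
ideal. -/
theorem exists_mem_inertia_exponent {p : ℕ} (hp : p.Prime) (hp2 : p ≠ 2)
    {P : ValuationSubring ℚ̄} (hP : P.LiesOverPrime p) :
    ∃ σ ∈ P.inertiaSubgroupIn ℚ, ∃ a : ℕ, (∀ μ : ℚ̄, μ ^ p ^ 1 = 1 → σ μ = μ ^ a) ∧
      ¬ (p : ℤ) ∣ (a : ℤ) - 1 := by
  have : NeZero p := ⟨hp.ne_zero⟩
  obtain ⟨σ, hσ, hne⟩ := exists_mem_inertia_cycloChar_ne_one hp hp2 hP
  refine ⟨σ, hσ, (EC.cycloChar p σ : ZMod p).val, fun μ hμ => ?_, fun h => hne (Units.ext ?_)⟩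
  · rw [pow_one] at hμ
    exact EC.apply_eq_pow_cycloChar p σ hμ
  · rw [← ZMod.intCast_zmod_eq_zero_iff_dvd] at h
    push_cast at h
    rw [ZMod.natCast_zmod_val, sub_eq_zero] at h
    simpa using h

end Fermat.Agent.RT
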