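import Fermat.Prelude.Def_GaloisRep_StrictOrdinary
import Fermat.Agent.Deformation.Matrix
import Fermat.Agent.RT.CarayolDescent
import Fermat.Agent.RT.LocalAtP.InertiaCyclo

/-!
# The strict ordinary condition as a system of equations

For odd `p` and cyclotomic determinant the ordinary line is the image of `ρ σ₀ - 1` for an inertia
element `σ₀` with `det ρ σ₀ - 1` a unit, so that the condition becomes a system of polynomial
equations and congruences in the matrix entries, natural in the coefficient ring.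
-/

noncomputable section

open IsLocalRing

namespace Fermat.Agent.RT

local notation "ℚ̄" => AlgebraicClosure ℚ
local notation "Γℚ" => (AlgebraicClosure ℚ ≃ₐ[ℚ] AlgebraicClosure ℚ)

variable {A : Type} [CommRing A]

/-- `σ` acts on `μ_{p^n}` by the exponent `a`. -/
def ActsByExp (p n : ℕ) (σ : Γℚ) (a : ℕ) : Prop :=
  ∀ μ : ℚ̄, μ ^ p ^ n = 1 → σ μ = μ ^ a

theorem exists_actsByExp {p : ℕ} (hp : p ≠ 0) (n : ℕ) (σ : Γℚ) : ∃ a, ActsByExp p n σ a := by
  have : NeZero (p ^ n) := ⟨pow_ne_zero n hp⟩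
  exact ⟨_, fun μ hμ => EC.apply_eq_pow_cycloChar (p ^ n) σ hμ⟩

theorem ActsByExp.mono {p n m a : ℕ} {σ : Γℚ} (h : ActsByExp p m σ a) (hnm : n ≤ m) :
    ActsByExp p n σ a := fun μ hμ => h μ (by
  obtain ⟨k, hk⟩ := pow_dvd_pow p hnm
  rw [hk, pow_mul, hμ, one_pow])

theorem ActsByExp.sub_mem {p n a a' : ℕ} (hp : p ≠ 0) {σ : Γℚ} (h : ActsByExp p n σ a)
    (h' : ActsByExp p n σ a') : (a' : A) - (a : A) ∈ Ideal.span {((p ^ n : ℕ) : A)} := by
  have : NeZero (p ^ n) := ⟨pow_ne_zero n hp⟩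
  obtain ⟨ζ, hζ⟩ := EC.exists_primitiveRoot_qbar (p ^ n)
  have e := (EC.cycloChar_eq_of_apply_eq_pow (p ^ n) σ hζ (h ζ hζ.pow_eq_one)).symm.trans
    (EC.cycloChar_eq_of_apply_eq_pow (p ^ n) σ hζ (h' ζ hζ.pow_eq_one))
  obtain ⟨k, hk⟩ := Nat.modEq_iff_dvd.mp ((ZMod.natCast_eq_natCast_iff a a' _).mp e)
  rw [Ideal.mem_span_singleton]
  exact ⟨(k : A), by simpa using congrArg (Int.cast : ℤ → A) hk⟩

/-- The equations of the strict ordinary condition at `P`, with respect to `σ₀`. -/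
structure StrictOrdEqns (p : ℕ) (P : ValuationSubring ℚ̄) (σ₀ : Γℚ)
    (R : Γℚ →* Matrix (Fin 2) (Fin 2) A) : Prop where
  trace_eq : (R σ₀).trace = 1 + (R σ₀).det
  stable : ∀ σ ∈ P.decompositionSubgroup ℚ,
    ((R σ₀).det • 1 - R σ₀) * R σ * (R σ₀ - 1) = 0
  inertia : ∀ σ ∈ P.inertiaSubgroupIn ℚ, ((R σ₀).det • 1 - R σ₀) * (R σ - 1) = 0
  ratio : ∀ σ ∈ P.decompositionSubgroup ℚ, ∀ n a : ℕ, ActsByExp p n σ a →
    ((R σ₀ - 1) * R σ).trace - (a : A) * (((R σ₀).det • 1 - R σ₀) * R σ).trace ∈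
      Ideal.span {((p ^ n : ℕ) : A)}

variable {p : ℕ} {P : ValuationSubring ℚ̄} {σ₀ : Γℚ}

theorem StrictOrdEqns.conj {R R' : Γℚ →* Matrix (Fin 2) (Fin 2) A}
    (u : (Matrix (Fin 2) (Fin 2) A)ˣ)
    (hu : ∀ σ, (u : Matrix (Fin 2) (Fin 2) A) * R σ = R' σ * u)
    (h : StrictOrdEqns p P σ₀ R) : StrictOrdEqns p P σ₀ R' := by
  let c : Matrix (Fin 2) (Fin 2) A ≃ₐ[A] Matrix (Fin 2) (Fin 2) A :=
    AlgEquiv.ofRingEquiv (f :=
      { toFun := fun X => (u : Matrix (Fin 2) (Fin 2) A) * X * (↑u⁻¹ : Matrix (Fin 2) (Fin 2) A)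
        invFun := fun X => (↑u⁻¹ : Matrix (Fin 2) (Fin 2) A) * X * u
        left_inv := fun X => by simp [mul_assoc]
        right_inv := fun X => by simp [mul_assoc]
        map_mul' := fun X Y => by simp [mul_assoc]
        map_add' := fun X Y => by simp [mul_add, add_mul] }) fun r => by
      simp [Algebra.algebraMap_eq_smul_one]
  have hR : ∀ σ, R' σ = c (R σ) := fun σ => by
    show R' σ = (u : Matrix (Fin 2) (Fin 2) A) * R σ * (↑u⁻¹ : Matrix (Fin 2) (Fin 2) A)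
    rw [hu, mul_assoc, Units.mul_inv, mul_one]
  have htr : ∀ X, (c X).trace = X.trace := fun X => Matrix.trace_units_conj u X
  have hdet : ∀ X, (c X).det = X.det := fun X => Matrix.det_units_conj u X
  obtain ⟨h1, h2, h3, h4⟩ := h
  refine ⟨?_, ?_, ?_, ?_⟩
  · rw [hR, htr, hdet, h1]
  · intro σ hσ
    rw [hR, hR, hdet, ← map_one c, ← map_smul, ← map_sub, ← map_sub, ← map_mul, ← map_mul,
      h2 σ hσ, map_zero]
  · intro σ hσ
    rw [hR, hR, hdet, ← map_one c, ← map_smul, ← map_sub, ← map_sub, ← map_mul, h3 σ hσ,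
      map_zero]
  · intro σ hσ n a ha
    rw [hR, hR, hdet, ← map_one c, ← map_smul, ← map_sub, ← map_sub, ← map_mul, ← map_mul, htr,
      htr]
    exact h4 σ hσ n a ha

theorem StrictOrdEqns.map {B : Type} [CommRing B] (φ : A →+* B)
    {R : Γℚ →* Matrix (Fin 2) (Fin 2) A} (h : StrictOrdEqns p P σ₀ R) :
    StrictOrdEqns p P σ₀ (Deformation.mapRep φ R) := by
  obtain ⟨h1, h2, h3, h4⟩ := h
  have hF : (Deformation.mapRep φ R σ₀).det • 1 - Deformation.mapRep φ R σ₀ =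
      φ.mapMatrix ((R σ₀).det • 1 - R σ₀) := by
    rw [Deformation.mapRep_apply, ← RingHom.mapMatrix_apply, ← RingHom.map_det]
    ext i j
    simp [Matrix.one_apply]
    split <;> simp
  have hE : Deformation.mapRep φ R σ₀ - 1 = φ.mapMatrix (R σ₀ - 1) := by
    rw [Deformation.mapRep_apply, map_sub, map_one]; rfl
  refine ⟨?_, ?_, ?_, ?_⟩
  · rw [Deformation.mapRep_apply, ← AddMonoidHom.map_trace, ← RingHom.mapMatrix_apply,
      ← RingHom.map_det, h1, map_add, map_one]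
  · intro σ hσ
    rw [hF, hE, Deformation.mapRep_apply, ← RingHom.mapMatrix_apply, ← map_mul, ← map_mul,
      h2 σ hσ, map_zero]
  · intro σ hσ
    rw [hF, Deformation.mapRep_apply, ← RingHom.mapMatrix_apply, ← map_one φ.mapMatrix, ← map_sub,
      ← map_mul, h3 σ hσ, map_zero]
  · intro σ hσ n a ha
    rw [hF, hE, Deformation.mapRep_apply, ← RingHom.mapMatrix_apply, ← map_mul, ← map_mul,
      RingHom.mapMatrix_apply, RingHom.mapMatrix_apply, ← AddMonoidHom.map_trace,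
      ← AddMonoidHom.map_trace, ← map_natCast φ a, ← map_mul, ← map_sub,
      Ideal.mem_span_singleton, ← map_natCast φ (p ^ n)]
    exact map_dvd φ (Ideal.mem_span_singleton.mp (h4 σ hσ n a ha))

/-- Jointly injective maps detect the equations. -/
theorem StrictOrdEqns.of_map (hp : p ≠ 0) {J : Type*} {B : J → Type} [∀ j, CommRing (B j)]
    (φ : ∀ j, A →+* B j) (hinj : ∀ x : A, (∀ j, φ j x = 0) → x = 0)
    (hsep : ∀ n, ∃ m, n ≤ m ∧ ∀ x : A,
      (∀ j, φ j x ∈ Ideal.span {((p ^ m : ℕ) : B j)}) → x ∈ Ideal.span {((p ^ n : ℕ) : A)})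
    {R : Γℚ →* Matrix (Fin 2) (Fin 2) A}
    (h : ∀ j, StrictOrdEqns p P σ₀ (Deformation.mapRep (φ j) R)) :
    StrictOrdEqns p P σ₀ R := by
  have hF : ∀ j, (φ j).mapMatrix ((R σ₀).det • 1 - R σ₀) =
      (Deformation.mapRep (φ j) R σ₀).det • 1 - Deformation.mapRep (φ j) R σ₀ := by
    intro j
    rw [Deformation.mapRep_apply, ← RingHom.mapMatrix_apply, ← RingHom.map_det]
    ext i i'
    simp [Matrix.one_apply]
    split <;> simp
  have hE : ∀ j, (φ j).mapMatrix (R σ₀ - 1) = Deformation.mapRep (φ j) R σ₀ - 1 := by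
    intro j
    rw [Deformation.mapRep_apply, map_sub, map_one]; rfl
  have hmat : ∀ X : Matrix (Fin 2) (Fin 2) A, (∀ j, (φ j).mapMatrix X = 0) → X = 0 := fun X hX => by
    ext i i'
    exact hinj _ fun j => congrFun (congrFun (hX j) i) i'
  refine ⟨?_, ?_, ?_, ?_⟩
  · refine sub_eq_zero.mp (hinj _ fun j => ?_)
    rw [map_sub, map_add, map_one, AddMonoidHom.map_trace, RingHom.map_det,
      RingHom.mapMatrix_apply, sub_eq_zero]
    exact (h j).trace_eq
  · intro σ hσ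
    refine hmat _ fun j => ?_
    rw [map_mul, map_mul, hF, hE]
    exact (h j).stable σ hσ
  · intro σ hσ
    refine hmat _ fun j => ?_
    rw [map_mul, map_sub (φ j).mapMatrix (R σ) 1, map_one, hF]
    exact (h j).inertia σ hσ
  · intro σ hσ n a ha
    obtain ⟨m, hnm, hm⟩ := hsep n
    obtain ⟨a', ha'⟩ := exists_actsByExp hp m σ
    have h1 := hm (((R σ₀ - 1) * R σ).trace -
        (a' : A) * (((R σ₀).det • 1 - R σ₀) * R σ).trace) fun j => by
      rw [map_sub, map_mul, map_natCast, AddMonoidHom.map_trace, AddMonoidHom.map_trace,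
        ← RingHom.mapMatrix_apply, ← RingHom.mapMatrix_apply, map_mul, map_mul, hF, hE]
      exact (h j).ratio σ hσ m a' ha'
    have h2 := Ideal.mul_mem_right (((R σ₀).det • 1 - R σ₀) * R σ).trace _
      (ActsByExp.sub_mem (A := A) hp ha (ha'.mono hnm))
    convert Ideal.add_mem _ h1 h2 using 1
    ring

theorem sub_one_mem_mul_self {R : Γℚ →* Matrix (Fin 2) (Fin 2) A}
    (h : (R σ₀).trace = 1 + (R σ₀).det) :
    (R σ₀ - 1).det = 0 ∧ ((R σ₀).det • 1 - R σ₀).det = 0 := by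
  rw [Matrix.trace_fin_two, Matrix.det_fin_two] at h
  refine ⟨?_, ?_⟩ <;> simp [Matrix.det_fin_two]
  · linear_combination -h
  · linear_combination -(R σ₀ 0 0 * R σ₀ 1 1 - R σ₀ 0 1 * R σ₀ 1 0) * h

section Module

variable [IsLocalRing A] (ρ : GaloisRepAdic A)

/-- The strict ordinary condition at a single place. -/
def HasStrictLine (p : ℕ) (P : ValuationSubring ℚ̄) : Prop :=
  ∃ L : Submodule A ρ.V,
    (∃ b : Module.Basis (Fin 2) A ρ.V, L = A ∙ b 0) ∧
    (∀ σ ∈ P.decompositionSubgroup ℚ, ∀ v ∈ L, ρ.ρ σ v ∈ L) ∧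
    (∀ σ ∈ P.inertiaSubgroupIn ℚ, ∀ v : ρ.V, ρ.ρ σ v - v ∈ L) ∧
    (∀ σ ∈ P.decompositionSubgroup ℚ, ∃ x z : A,
      (∀ w ∈ L, ρ.ρ σ w = x • w) ∧ (∀ v : ρ.V, ρ.ρ σ v - z • v ∈ L) ∧
      ∀ n a : ℕ, ActsByExp p n σ a → x - (a : A) * z ∈ Ideal.span {((p ^ n : ℕ) : A)})

theorem isStrictOrdinaryAt_iff_hasStrictLine (p : ℕ) :
    ρ.IsStrictOrdinaryAt p ↔ (p : A) ∈ maximalIdeal A ∧
      ∀ P : ValuationSubring ℚ̄, P.LiesOverPrime p → HasStrictLine ρ p P :=
  Iff.rfl

theorem StrictOrdEqns.of_hasStrictLine (hσ₀ : σ₀ ∈ P.inertiaSubgroupIn ℚ)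
    (b : Module.Basis (Fin 2) A ρ.V) (h : HasStrictLine ρ p P) :
    StrictOrdEqns p P σ₀ (Deformation.matOf ρ.ρ b) := by
  obtain ⟨L, ⟨b', rfl⟩, hD, hI, hS⟩ := h
  obtain ⟨u, hu⟩ := Deformation.exists_conj_of_basis ρ.ρ b' b
  refine StrictOrdEqns.conj u hu ?_
  set R := Deformation.matOf ρ.ρ b' with hR
  have hcoord : ∀ v ∈ A ∙ b' 0, b'.repr v 1 = 0 := by
    intro v hv
    obtain ⟨r, rfl⟩ := Submodule.mem_span_singleton.mp hv
    simp
  have h10 : ∀ σ ∈ P.decompositionSubgroup ℚ, R σ 1 0 = 0 := fun σ hσ => by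
    rw [hR, Deformation.matOf_apply, LinearMap.toMatrix_apply]
    exact hcoord _ (hD σ hσ _ (Submodule.mem_span_singleton_self _))
  have hI' : ∀ σ ∈ P.inertiaSubgroupIn ℚ, R σ 1 0 = 0 ∧ R σ 1 1 = 1 := by
    intro σ hσ
    refine ⟨?_, ?_⟩ <;> rw [hR, Deformation.matOf_apply, LinearMap.toMatrix_apply]
    · simpa using hcoord _ (hI σ hσ (b' 0))
    · simpa [sub_eq_zero] using hcoord _ (hI σ hσ (b' 1))
  obtain ⟨h010, h011⟩ := hI' σ₀ hσ₀
  refine ⟨?_, ?_, ?_, ?_⟩
  · simp [Matrix.trace_fin_two, Matrix.det_fin_two, h010, h011]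
    ring
  · intro σ hσ
    ext i j
    fin_cases i <;> fin_cases j <;>
      simp [Matrix.mul_apply, Fin.sum_univ_two, Matrix.det_fin_two, h010, h011, h10 σ hσ]
  · intro σ hσ
    obtain ⟨h1, h2⟩ := hI' σ hσ
    ext i j
    fin_cases i <;> fin_cases j <;>
      simp [Matrix.mul_apply, Fin.sum_univ_two, Matrix.det_fin_two, h010, h011, h1, h2]
  · intro σ hσ n a ha
    obtain ⟨x, z, hx, hz, hxz⟩ := hS σ hσ
    have h00 : R σ 0 0 = x := by
      rw [hR, Deformation.matOf_apply, LinearMap.toMatrix_apply,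
        hx _ (Submodule.mem_span_singleton_self _)]
      simp
    have h11 : R σ 1 1 = z := by
      rw [hR, Deformation.matOf_apply, LinearMap.toMatrix_apply]
      simpa [sub_eq_zero] using hcoord _ (hz (b' 1))
    have := Ideal.mul_mem_left _ (R σ₀ 0 0 - 1) (hxz n a ha)
    convert this using 1
    simp [Matrix.mul_apply, Fin.sum_univ_two, Matrix.trace_fin_two, Matrix.det_fin_two, h010,
      h011, h10 σ hσ, h00, h11]
    ring

theorem hasStrictLine_of_eqns (b : Module.Basis (Fin 2) A ρ.V)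
    (hd : IsUnit ((Deformation.matOf ρ.ρ b σ₀).det - 1))
    (h : StrictOrdEqns p P σ₀ (Deformation.matOf ρ.ρ b)) : HasStrictLine ρ p P := by
  set R := Deformation.matOf ρ.ρ b with hR
  obtain ⟨η, hη⟩ := hd.exists_left_inv
  obtain ⟨hdE, hdF⟩ := sub_one_mem_mul_self h.trace_eq
  set d := (R σ₀).det with hd_def
  set e := η • (R σ₀ - 1) with he
  set f := η • (d • (1 : Matrix (Fin 2) (Fin 2) A) - R σ₀) with hf
  have hde : e.det = 0 := by rw [he, Matrix.det_smul, hdE, mul_zero]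
  have hdf : f.det = 0 := by rw [hf, Matrix.det_smul, hdF, mul_zero]
  have hsum : e + f = 1 := by
    rw [he, hf, ← smul_add]
    calc η • (R σ₀ - 1 + (d • (1 : Matrix (Fin 2) (Fin 2) A) - R σ₀))
        = η • ((d - 1) • (1 : Matrix (Fin 2) (Fin 2) A)) := by rw [sub_smul, one_smul]; abel_nf
      _ = 1 := by rw [smul_smul, hη, one_smul]
  have hte : e.trace = 1 := by
    rw [he, Matrix.trace_smul, Matrix.trace_sub, h.trace_eq, Matrix.trace_one]
    simp
    linear_combination hη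
  have htf : f.trace = 1 := by
    have := congrArg Matrix.trace hsum
    rw [Matrix.trace_add, hte, Matrix.trace_one] at this
    simp at this
    linear_combination this
  have hee := mul_self_of_rankOne hte hde
  have hff := mul_self_of_rankOne htf hdf
  have hfe : f * e = 0 := by
    have : f = 1 - e := eq_sub_of_add_eq (by rw [add_comm, hsum])
    rw [this, sub_mul, one_mul, hee, sub_self]
  have hef : e * f = 0 := by
    have : f = 1 - e := eq_sub_of_add_eq (by rw [add_comm, hsum])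
    rw [this, mul_sub, mul_one, hee, sub_self]
  -- transport to endomorphisms
  let T := (LinearMap.toMatrixAlgEquiv b).symm
  have hT : ∀ σ, T (R σ) = ρ.ρ σ := fun σ =>
    (LinearMap.toMatrixAlgEquiv b).symm_apply_apply _
  let e' : Module.End A ρ.V := T e
  let f' : Module.End A ρ.V := T f
  have hsum' : ∀ v, e' v + f' v = v := fun v => by
    rw [← LinearMap.add_apply, ← map_add, hsum, map_one]; rfl
  have hkerf : ∀ v, f' v = 0 → e' v = v := fun v hv => by simpa [hv] using hsum' v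
  -- basis adapted to the line
  obtain ⟨j, i, hji, hunit⟩ :
      ∃ j i : Fin 2, (j = 0 ∧ i = 1 ∨ j = 1 ∧ i = 0) ∧ IsUnit (e j j) := by
    rw [Matrix.trace_fin_two] at hte
    rcases IsLocalRing.isUnit_or_isUnit_of_add_one hte with h0 | h1
    · exact ⟨0, 1, Or.inl ⟨rfl, rfl⟩, h0⟩
    · exact ⟨1, 0, Or.inr ⟨rfl, rfl⟩, h1⟩
  let v : Fin 2 → ρ.V := ![e' (b j), f' (b i)]
  have hf1 : f = 1 - e := eq_sub_of_add_eq (by rw [add_comm, hsum])
  have hrepr : ∀ (X : Matrix (Fin 2) (Fin 2) A) c r, b.repr (T X (b c)) r = X r c := fun X c r => by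
    have := congrFun (congrFun ((LinearMap.toMatrixAlgEquiv b).apply_symm_apply X) r) c
    rwa [LinearMap.toMatrixAlgEquiv_apply] at this
  have hdetv : IsUnit (b.det v) := by
    rw [Module.Basis.det_apply, Matrix.det_fin_two]
    simp only [Module.Basis.toMatrix_apply, v, Matrix.cons_val_zero, Matrix.cons_val_one, e', f',
      hrepr, hf1, Matrix.sub_apply]
    rw [Matrix.trace_fin_two] at hte
    rw [Matrix.det_fin_two] at hde
    rcases hji with ⟨rfl, rfl⟩ | ⟨rfl, rfl⟩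
    · convert hunit using 1
      simp
      linear_combination (-hde)
    · convert hunit.neg using 1
      simp
      linear_combination hde
  obtain ⟨hli, hsp⟩ := (Module.Basis.is_basis_iff_det b).mpr hdetv
  let b' := Module.Basis.mk hli hsp.ge
  have hb0 : b' 0 = e' (b j) := by simp [b', v]
  have hb1 : b' 1 = f' (b i) := by simp [b', v]
  have hmem : ∀ w, e' w ∈ A ∙ b' 0 := by
    intro w
    rw [← b'.sum_repr w, map_sum, Fin.sum_univ_two, map_smul, map_smul, hb1, hb0,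
      ← Module.End.mul_apply, ← map_mul, hee, ← Module.End.mul_apply, ← map_mul, hef, map_zero T,
      LinearMap.zero_apply, smul_zero, add_zero]
    exact Submodule.smul_mem _ _ (Submodule.mem_span_singleton_self _)
  have hfix : ∀ w ∈ A ∙ b' 0, e' w = w := by
    intro w hw
    obtain ⟨r, rfl⟩ := Submodule.mem_span_singleton.mp hw
    rw [map_smul, hb0, ← Module.End.mul_apply, ← map_mul, hee]
  have hker : ∀ w, f' w = 0 → w ∈ A ∙ b' 0 := fun w hw => hkerf w hw ▸ hmem w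
  have hzero : ∀ X : Matrix (Fin 2) (Fin 2) A, X = 0 → ∀ w, T X w = 0 := fun X hX w => by
    rw [hX, map_zero, LinearMap.zero_apply]
  have hfσe : ∀ σ ∈ P.decompositionSubgroup ℚ, f * R σ * e = 0 := fun σ hσ => by
    rw [hf, he, smul_mul_assoc, smul_mul_assoc, mul_smul_comm, h.stable σ hσ, smul_zero, smul_zero]
  refine ⟨A ∙ b' 0, ⟨b', rfl⟩, ?_, ?_, ?_⟩
  · intro σ hσ w hw
    refine hker _ ?_
    rw [← hT, ← hfix w hw]
    show T f (T (R σ) (T e w)) = 0
    rw [← Module.End.mul_apply, ← Module.End.mul_apply, ← map_mul, ← map_mul]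
    exact hzero _ (hfσe σ hσ) w
  · intro σ hσ w
    refine hker _ ?_
    rw [← hT]
    show T f (T (R σ) w - w) = 0
    rw [map_sub, ← Module.End.mul_apply, ← map_mul, ← LinearMap.sub_apply, ← map_sub]
    refine hzero _ ?_ w
    rw [← mul_sub_one, hf, smul_mul_assoc, h.inertia σ hσ, smul_zero]
  · intro σ hσ
    refine ⟨(e * R σ).trace, (f * R σ).trace, ?_, ?_, ?_⟩
    · intro w hw
      have hkey : R σ * e = (e * R σ).trace • e := by
        conv_lhs => rw [← one_mul (R σ), ← hsum, add_mul, add_mul, hfσe σ hσ, add_zero,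
          mul_mul_eq_trace_smul e (R σ) hde]
      rw [← hT, ← hfix w hw]
      show T (R σ) (T e w) = _ • T e w
      rw [← Module.End.mul_apply, ← map_mul, hkey, map_smul, LinearMap.smul_apply]
    · intro w
      refine hker _ ?_
      rw [← hT]
      show T f (T (R σ) w - (f * R σ).trace • w) = 0
      rw [map_sub, (T f).map_smul, ← Module.End.mul_apply, ← map_mul T, ← LinearMap.smul_apply,
        ← map_smul T, ← LinearMap.sub_apply, ← map_sub T]
      refine hzero _ ?_ w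
      rw [← mul_mul_eq_trace_smul f (R σ) hdf]
      conv_lhs => arg 1; rw [← mul_one (f * R σ), ← hsum, mul_add, hfσe σ hσ, zero_add]
      rw [sub_self]
    · intro n a ha
      have := Ideal.mul_mem_left _ η (h.ratio σ hσ n a ha)
      convert this using 1
      rw [he, hf, smul_mul_assoc, smul_mul_assoc, Matrix.trace_smul, Matrix.trace_smul]
      simp only [smul_eq_mul]
      ring

/-- With cyclotomic determinant, `det ρ σ₀ - 1` is a unit for the chosen inertia element. -/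
theorem isUnit_det_sub_one {a₀ : ℕ} (hp : p.Prime) (hρ : ρ.DetIsCyclotomic p)
    (ha : ActsByExp p 1 σ₀ a₀) (ha₀ : ¬ (p : ℤ) ∣ (a₀ : ℤ) - 1)
    (b : Module.Basis (Fin 2) A ρ.V) : IsUnit ((Deformation.matOf ρ.ρ b σ₀).det - 1) := by
  rw [Deformation.matOf_apply, LinearMap.det_toMatrix]
  have h1 : LinearMap.det (ρ.ρ σ₀) - (a₀ : A) ∈ maximalIdeal A :=
    (Ideal.span_singleton_le_iff_mem (maximalIdeal A)).mpr (by simpa using hρ.1) (hρ.2 1 σ₀ a₀ ha)
  obtain ⟨u, v, huv⟩ : IsCoprime (p : ℤ) ((a₀ : ℤ) - 1) :=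
    (Nat.prime_iff_prime_int.mp hp).coprime_iff_not_dvd.mpr ha₀
  have h2 : IsUnit ((a₀ : A) - 1) := by
    rw [← IsLocalRing.notMem_maximalIdeal]
    intro hmem
    refine (Ideal.IsMaximal.ne_top (I := maximalIdeal A) inferInstance)
      ((Ideal.eq_top_iff_one _).mpr ?_)
    have h3 := Ideal.add_mem _ (Ideal.mul_mem_left _ (u : A) hρ.1) (Ideal.mul_mem_left _ (v : A) hmem)
    convert h3 using 1
    exact_mod_cast congrArg (Int.cast : ℤ → A) huv.symm
  by_contra hnu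
  have h3 := Ideal.sub_mem _ ((IsLocalRing.mem_maximalIdeal _).mpr hnu) h1
  rw [show LinearMap.det (ρ.ρ σ₀) - 1 - (LinearMap.det (ρ.ρ σ₀) - (a₀ : A)) = (a₀ : A) - 1 by
    ring] at h3
  exact (IsLocalRing.notMem_maximalIdeal.mpr h2) h3

/-- The criterion. -/
theorem isStrictOrdinaryAt_iff_eqns (hp : p.Prime) (hp2 : p ≠ 2) (hρ : ρ.DetIsCyclotomic p)
    (b : Module.Basis (Fin 2) A ρ.V) :
    ρ.IsStrictOrdinaryAt p ↔ ∀ P : ValuationSubring ℚ̄, P.LiesOverPrime p →
      ∀ σ₀ ∈ P.inertiaSubgroupIn ℚ, StrictOrdEqns p P σ₀ (Deformation.matOf ρ.ρ b) := by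
  refine ⟨fun h P hP σ₀ hσ₀ => StrictOrdEqns.of_hasStrictLine ρ hσ₀ b (h.2 P hP),
    fun h => ⟨hρ.1, fun P hP => ?_⟩⟩
  obtain ⟨σ₀, hσ₀, a₀, ha, ha₀⟩ := exists_mem_inertia_exponent hp hp2 hP
  exact hasStrictLine_of_eqns ρ b (isUnit_det_sub_one ρ hp hρ ha ha₀ b) (h P hP σ₀ hσ₀)

end Module

end Fermat.Agent.RT
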