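import Fermat.Prelude.Def_GaloisRep_DeformationCondition
import Fermat.Agent.Density.Transfer
import Fermat.Agent.RT.Chevalley
import Fermat.Agent.RT.LocalAtP.StrictOrdinary

/-!
# The local conditions are deformation conditions

`IsDescending`: a property of representations which is invariant under equivalence, stable under
base change and detected by jointly injective families; any such property is a deformation
condition.  This covers cyclotomic determinant, unramifiedness, unipotent inertia and, for odd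
`p`, the strict ordinary condition.
-/

noncomputable section

open IsLocalRing

namespace Fermat.Agent.RT

local notation "ℚ̄" => AlgebraicClosure ℚ
local notation "Γℚ" => (AlgebraicClosure ℚ ≃ₐ[ℚ] AlgebraicClosure ℚ)

/-- Properties of representations natural in the coefficient ring and detected by jointly
injective families of local maps. -/
structure IsDescending (p : ℕ)
    (Q : ∀ ⦃A : Type⦄ [CommRing A] [IsLocalRing A], GaloisRepAdic A → Prop) : Prop where
  of_isEquiv : ∀ ⦃A : Type⦄ [CommRing A] [IsLocalRing A] ⦃ρ ρ' : GaloisRepAdic A⦄,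
    ρ.IsEquiv ρ' → Q ρ → Q ρ'
  baseChange : ∀ ⦃A B : Type⦄ [CommRing A] [IsLocalRing A] [CommRing B] [IsLocalRing B]
    (φ : A →+* B) (hφ : IsLocalHom φ) ⦃ρ : GaloisRepAdic A⦄, Q ρ → Q (ρ.baseChangeAlong φ hφ)
  descent : ∀ ⦃A : Type⦄ [CommRing A] [IsLocalRing A] ⦃J : Type⦄ (B : J → Type)
    [∀ j, CommRing (B j)] [∀ j, IsLocalRing (B j)] (φ : ∀ j, A →+* B j)
    (hφ : ∀ j, IsLocalHom (φ j)), (p : A) ∈ maximalIdeal A →
    (∀ x : A, (∀ j, φ j x = 0) → x = 0) →
    (∀ n, ∃ m, n ≤ m ∧ ∀ x : A,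
      (∀ j, φ j x ∈ Ideal.span {((p ^ m : ℕ) : B j)}) → x ∈ Ideal.span {((p ^ n : ℕ) : A)}) →
    ∀ ⦃ρ : GaloisRepAdic A⦄, (∀ j, Q (ρ.baseChangeAlong (φ j) (hφ j))) → Q ρ

variable {p : ℕ}

theorem IsDescending.and {Q₁ Q₂ : ∀ ⦃A : Type⦄ [CommRing A] [IsLocalRing A], GaloisRepAdic A → Prop}
    (h₁ : IsDescending p Q₁) (h₂ : IsDescending p Q₂) :
    IsDescending p fun _A _ _ ρ => Q₁ ρ ∧ Q₂ ρ where
  of_isEquiv := fun _A _ _ _ _ he h => ⟨h₁.of_isEquiv he h.1, h₂.of_isEquiv he h.2⟩
  baseChange := fun _A _B _ _ _ _ φ hφ _ h => ⟨h₁.baseChange φ hφ h.1, h₂.baseChange φ hφ h.2⟩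
  descent := fun _A _ _ _J B _ _ φ hφ hp hinj hsep _ h =>
    ⟨h₁.descent B φ hφ hp hinj hsep fun j => (h j).1,
      h₂.descent B φ hφ hp hinj hsep fun j => (h j).2⟩

/-- Conjunctions of deformation conditions are deformation conditions. -/
theorem isDeformationCondition_and {𝒪 : Type} [CommRing 𝒪] [IsLocalRing 𝒪]
    {D₁ D₂ : ∀ ⦃A : Type⦄ [CommRing A] [IsLocalRing A] [Algebra 𝒪 A], GaloisRepAdic A → Prop}
    (h₁ : GaloisRep.IsDeformationCondition 𝒪 D₁) (h₂ : GaloisRep.IsDeformationCondition 𝒪 D₂) :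
    GaloisRep.IsDeformationCondition 𝒪 fun _A _ _ _ ρ => D₁ ρ ∧ D₂ ρ where
  of_isEquiv := fun _A _ _ _ hA _ _ he h => ⟨h₁.of_isEquiv hA he h.1, h₂.of_isEquiv hA he h.2⟩
  baseChangeAlong := fun _A _B _ _ _ _ _ _ hA hB φ hφ _ h =>
    ⟨h₁.baseChangeAlong hA hB φ hφ h.1, h₂.baseChangeAlong hA hB φ hφ h.2⟩
  of_baseChangeAlong_injective := fun _A _B _ _ _ _ _ _ hA hB φ hφ hinj _ h =>
    ⟨h₁.of_baseChangeAlong_injective hA hB φ hφ hinj h.1,
      h₂.of_baseChangeAlong_injective hA hB φ hφ hinj h.2⟩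
  of_fibreProduct := fun _A _B _C _P _ _ _ _ _ _ _ _ _ _ _ _ hA hB hC hP f g pA pB hpA hpB hfg
      hinj hsurj _ ha hb =>
    ⟨h₁.of_fibreProduct hA hB hC hP f g pA pB hpA hpB hfg hinj hsurj ha.1 hb.1,
      h₂.of_fibreProduct hA hB hC hP f g pA pB hpA hpB hfg hinj hsurj ha.2 hb.2⟩
  iff_forall_surjective := fun _A _ _ _ _ _ hloc hres ρ =>
    ⟨fun h _B _ _ _ hB q hq hs =>
      ⟨(h₁.iff_forall_surjective hloc hres ρ).mp h.1 hB q hq hs,
        (h₂.iff_forall_surjective hloc hres ρ).mp h.2 hB q hq hs⟩,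
    fun h => ⟨(h₁.iff_forall_surjective hloc hres ρ).mpr fun _B _ _ _ hB q hq hs => (h hB q hq hs).1,
      (h₂.iff_forall_surjective hloc hres ρ).mpr fun _B _ _ _ hB q hq hs => (h hB q hq hs).2⟩⟩

theorem natCast_mem_maximalIdeal {𝒪 A : Type} [CommRing 𝒪] [IsLocalRing 𝒪] [CommRing A]
    [IsLocalRing A] [Algebra 𝒪 A] (hA : IsLocalHom (algebraMap 𝒪 A))
    (hp : (p : 𝒪) ∈ maximalIdeal 𝒪) : (p : A) ∈ maximalIdeal A := by
  simpa using map_nonunit (algebraMap 𝒪 A) (p : 𝒪) hp

theorem exists_pow_eq_zero {A : Type} [CommRing A] [IsLocalRing A] [IsArtinianRing A]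
    (hp : (p : A) ∈ maximalIdeal A) : ∃ m, ∀ k, m ≤ k → ((p ^ k : ℕ) : A) = 0 := by
  obtain ⟨m, hm⟩ := (isArtinianRing_iff_isNilpotent_maximalIdeal A).mp ‹_›
  refine ⟨m, fun k hk => ?_⟩
  have h := Ideal.pow_le_pow_right hk (Ideal.pow_mem_pow hp k)
  rw [hm] at h
  simpa using h

/-- A descending property is a deformation condition. -/
theorem IsDescending.isDeformationCondition {𝒪 : Type} [CommRing 𝒪] [IsLocalRing 𝒪]
    (hp : (p : 𝒪) ∈ maximalIdeal 𝒪)
    {Q : ∀ ⦃A : Type⦄ [CommRing A] [IsLocalRing A], GaloisRepAdic A → Prop}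
    (hQ : IsDescending p Q) :
    GaloisRep.IsDeformationCondition 𝒪 fun _A _ _ _ ρ => Q ρ where
  of_isEquiv := fun _A _ _ _ _ _ _ he h => hQ.of_isEquiv he h
  baseChangeAlong := fun _A _B _ _ _ _ _ _ _ _ φ hφ _ h => hQ.baseChange _ hφ h
  of_baseChangeAlong_injective := by
    intro A B _ _ _ _ _ _ hA hB φ hφ hinj ρ h
    have := hB.isArtinian
    obtain ⟨m, hm⟩ := exists_pow_eq_zero (natCast_mem_maximalIdeal hB.isLocalHom hp)
    refine hQ.descent (J := Unit) (fun _ => B) (fun _ => (φ : A →+* B)) (fun _ => hφ)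
      (natCast_mem_maximalIdeal hA.isLocalHom hp)
      (fun x hx => hinj ((hx ()).trans (map_zero φ).symm))
      (fun n => ⟨max n m, le_max_left _ _, fun x hx => ?_⟩) fun _ => h
    have h0 := hx ()
    rw [hm _ (le_max_right n m), Ideal.span_singleton_eq_bot.mpr rfl, Ideal.mem_bot] at h0
    have hx0 : x = 0 := hinj (h0.trans (map_zero φ).symm)
    rw [hx0]
    exact Submodule.zero_mem _
  of_fibreProduct := by
    intro A B C P iA iLA _ iB iLB _ _ _ _ _ _ _ hA hB _ hP f g pA pB hpA hpB _ hinj _ ρ ha hb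
    have := hA.isArtinian
    have := hB.isArtinian
    obtain ⟨mA, hmA⟩ := exists_pow_eq_zero (natCast_mem_maximalIdeal hA.isLocalHom hp)
    obtain ⟨mB, hmB⟩ := exists_pow_eq_zero (natCast_mem_maximalIdeal hB.isLocalHom hp)
    let F : Bool → Type := fun b => cond b A B
    let iR : ∀ b, CommRing (F b) := fun b =>
      match b with
      | true => iA
      | false => iB
    let iL : ∀ b, IsLocalRing (F b) := fun b =>
      match b with
      | true => iLA
      | false => iLB
    let ψ : ∀ b, P →+* F b := fun b =>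
      match b with
      | true => (pA : P →+* A)
      | false => (pB : P →+* B)
    have hzero : ∀ x : P, pA x = 0 → pB x = 0 → x = 0 := fun x h1 h2 =>
      hinj (by simp [h1, h2])
    refine hQ.descent F ψ (fun b => match b with | true => hpA | false => hpB)
      (natCast_mem_maximalIdeal hP.isLocalHom hp)
      (fun x hx => hzero x (hx true) (hx false))
      (fun n => ⟨max n (max mA mB), le_max_left _ _, fun x hx => ?_⟩)
      (fun b => match b with | true => ha | false => hb)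
    have h1 : pA x ∈ Ideal.span {((p ^ max n (max mA mB) : ℕ) : A)} := hx true
    have h2 : pB x ∈ Ideal.span {((p ^ max n (max mA mB) : ℕ) : B)} := hx false
    rw [hmA _ (le_trans (le_max_left mA mB) (le_max_right n _)),
      Ideal.span_singleton_eq_bot.mpr rfl, Ideal.mem_bot] at h1
    rw [hmB _ (le_trans (le_max_right mA mB) (le_max_right n _)),
      Ideal.span_singleton_eq_bot.mpr rfl, Ideal.mem_bot] at h2
    rw [hzero x h1 h2]
    exact Submodule.zero_mem _
  iff_forall_surjective := by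
    intro A _ _ _ _ _ hloc hres ρ
    refine ⟨fun h B _ _ _ _ q hq _ => hQ.baseChange _ hq h, fun h => ?_⟩
    have hne : ∀ k : ℕ, maximalIdeal A ^ (k + 1) ≠ ⊤ := fun k htop =>
      (Ideal.IsMaximal.ne_top (I := maximalIdeal A) inferInstance)
        (top_le_iff.mp (htop ▸ Ideal.pow_le_self k.succ_ne_zero))
    have : ∀ k : ℕ, Nontrivial (A ⧸ maximalIdeal A ^ (k + 1)) :=
      fun k => Ideal.Quotient.nontrivial_iff.mpr (hne k)
    have : ∀ k : ℕ, IsLocalRing (A ⧸ maximalIdeal A ^ (k + 1)) := fun k =>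
      IsLocalRing.of_surjective' (Ideal.Quotient.mk _) Ideal.Quotient.mk_surjective
    have hlocq : ∀ k : ℕ, IsLocalHom (Ideal.Quotient.mk (maximalIdeal A ^ (k + 1))) := fun k =>
      IsLocalHom.of_surjective _ Ideal.Quotient.mk_surjective
    refine hQ.descent (J := ℕ) (fun k => A ⧸ maximalIdeal A ^ (k + 1))
      (fun k => Ideal.Quotient.mk _) hlocq (natCast_mem_maximalIdeal hloc hp) ?_ ?_ fun k => ?_
    · intro x hx
      refine IsHausdorff.haus' (I := maximalIdeal A) _ fun k => ?_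
      rw [SModEq.zero, smul_eq_mul, Ideal.mul_top]
      exact Ideal.pow_le_pow_right k.le_succ (Ideal.Quotient.eq_zero_iff_mem.mp (hx k))
    · refine fun n => ⟨n, le_rfl, fun x hx => ?_⟩
      set J : Ideal A := Ideal.span {((p ^ n : ℕ) : A)} with hJ
      rw [← Ideal.Quotient.eq_zero_iff_mem, ← Submodule.mem_bot A,
        ← Ideal.iInf_pow_smul_eq_bot_of_isLocalRing (M := A ⧸ J) (maximalIdeal A)
          (Ideal.IsMaximal.ne_top inferInstance), Submodule.mem_iInf]
      intro k
      obtain ⟨c, hc⟩ := Ideal.mem_span_singleton.mp (hx k)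
      obtain ⟨c, rfl⟩ := Ideal.Quotient.mk_surjective c
      rw [← map_natCast (Ideal.Quotient.mk (maximalIdeal A ^ (k + 1))), ← map_mul,
        Ideal.Quotient.eq] at hc
      have hr := Ideal.pow_le_pow_right k.le_succ hc
      rw [show x = ((p ^ n : ℕ) : A) * c + (x - ((p ^ n : ℕ) : A) * c) by ring, map_add,
        Ideal.Quotient.eq_zero_iff_mem.mpr (Ideal.mul_mem_right c J (Ideal.mem_span_singleton_self _)),
        zero_add, show Ideal.Quotient.mk J (x - ((p ^ n : ℕ) : A) * c) =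
          (x - ((p ^ n : ℕ) : A) * c) • (1 : A ⧸ J) by rw [Algebra.smul_def, mul_one]; rfl]
      exact Submodule.smul_mem_smul hr Submodule.mem_top
    · have : IsLocalHom (Ideal.Quotient.mk (maximalIdeal A ^ (k + 1))) := hlocq k
      refine h (B := A ⧸ maximalIdeal A ^ (k + 1)) ⟨?_, ?_, ?_⟩ (Ideal.Quotient.mkₐ 𝒪 _) (hlocq k)
        Ideal.Quotient.mk_surjective
      · exact ⟨fun a ha => hloc.map_nonunit a ((hlocq k).map_nonunit _ (by simpa using ha))⟩
      · intro y
        obtain ⟨z, rfl⟩ := IsLocalRing.residue_surjective y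
        obtain ⟨x, rfl⟩ := Ideal.Quotient.mk_surjective z
        obtain ⟨o, ho⟩ := hres (IsLocalRing.residue A x)
        refine ⟨o, ?_⟩
        have := congrArg (IsLocalRing.ResidueField.map (Ideal.Quotient.mk (maximalIdeal A ^ (k + 1)))) ho
        simpa using this
      · exact isArtinianRing_quotient_maximalIdeal_pow (k + 1)

section Instances

theorem charpoly_adic_baseChangeAlong {A B : Type} [CommRing A] [IsLocalRing A] [CommRing B]
    [IsLocalRing B] (φ : A →+* B) (hφ : IsLocalHom φ) (ρ : GaloisRepAdic A) (σ : Γℚ) :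
    LinearMap.charpoly ((ρ.baseChangeAlong φ hφ).ρ σ) = (LinearMap.charpoly (ρ.ρ σ)).map φ := by
  let : Algebra A B := φ.toAlgebra
  exact LinearMap.charpoly_baseChange (ρ.ρ σ) B

theorem det_baseChangeAlong {A B : Type} [CommRing A] [IsLocalRing A] [CommRing B]
    [IsLocalRing B] (φ : A →+* B) (hφ : IsLocalHom φ) (ρ : GaloisRepAdic A) (σ : Γℚ) :
    LinearMap.det ((ρ.baseChangeAlong φ hφ).ρ σ) = φ (LinearMap.det (ρ.ρ σ)) := by
  let : Algebra A B := φ.toAlgebra
  exact LinearMap.det_baseChange (ρ.ρ σ)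

theorem detIsCyclotomic_baseChangeAlong {A B : Type} [CommRing A] [IsLocalRing A] [CommRing B]
    [IsLocalRing B] (φ : A →+* B) (hφ : IsLocalHom φ) {ρ : GaloisRepAdic A}
    (h : ρ.DetIsCyclotomic p) : (ρ.baseChangeAlong φ hφ).DetIsCyclotomic p := by
  refine ⟨by have := hφ; simpa using map_nonunit φ (p : A) h.1, fun n σ a ha => ?_⟩
  rw [det_baseChangeAlong, ← map_natCast φ a, ← map_sub, ← map_natCast φ (p ^ n),
    Ideal.mem_span_singleton]
  exact map_dvd φ (Ideal.mem_span_singleton.mp (h.2 n σ a ha))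

theorem isDescending_detIsCyclotomic (hp0 : p ≠ 0) :
    IsDescending p fun _A _ _ ρ => ρ.DetIsCyclotomic p where
  of_isEquiv := fun _A _ _ _ _ he h => Density.adic_detIsCyclotomic_of_isEquiv he h
  baseChange := fun _A _B _ _ _ _ φ hφ _ h => detIsCyclotomic_baseChangeAlong φ hφ h
  descent := by
    intro A _ _ J B _ _ φ hφ hpA _ hsep ρ h
    refine ⟨hpA, fun n σ a ha => ?_⟩
    obtain ⟨m, hnm, hm⟩ := hsep n
    obtain ⟨a', ha'⟩ := exists_actsByExp hp0 m σ
    have h1 := hm (LinearMap.det (ρ.ρ σ) - (a' : A)) fun j => by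
      rw [map_sub, map_natCast, ← det_baseChangeAlong (φ j) (hφ j)]
      exact (h j).2 m σ a' ha'
    have h2 := ActsByExp.sub_mem (A := A) hp0 ha (ha'.mono hnm)
    convert Ideal.add_mem _ h1 h2 using 1
    ring

theorem isDescending_isUnramifiedAt (q : ℕ) :
    IsDescending p fun _A _ _ ρ => ρ.IsUnramifiedAt q where
  of_isEquiv := fun _A _ _ _ _ he h => Density.adic_isUnramifiedAt_of_isEquiv he h
  baseChange := by
    intro A B _ _ _ _ φ hφ ρ h P hP σ hσ
    let : Algebra A B := φ.toAlgebra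
    show (ρ.ρ σ).baseChange B = 1
    rw [h P hP σ hσ]
    exact LinearMap.baseChange_one _ _
  descent := by
    intro A _ _ J B _ _ φ hφ _ hinj _ ρ h P hP σ hσ
    let b := Deformation.someBasis ρ
    have hmat : Deformation.matOf ρ.ρ b σ = 1 := by
      ext i i'
      refine sub_eq_zero.mp (hinj _ fun j => ?_)
      obtain ⟨b', hb'⟩ := Deformation.exists_basis_baseChangeAlong ρ b (φ j) (hφ j)
      have h1 : (Deformation.matOf ρ.ρ b σ).map (φ j) = 1 := by
        rw [← Deformation.mapRep_apply, ← hb', Deformation.matOf_apply, h j P hP σ hσ,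
          LinearMap.toMatrix_one]
      have h2 := congrFun (congrFun h1 i) i'
      rw [Matrix.map_apply] at h2
      rw [map_sub, h2, Matrix.one_apply, Matrix.one_apply]
      split <;> simp
    rw [Deformation.matOf_apply, ← LinearMap.toMatrix_one b] at hmat
    exact (LinearMap.toMatrix b b).injective hmat

theorem isDescending_isUnipotentOnInertiaAt (q : ℕ) :
    IsDescending p fun _A _ _ ρ => ρ.IsUnipotentOnInertiaAt q where
  of_isEquiv := fun _A _ _ _ _ he h => Density.adic_isUnipotentOnInertiaAt_of_isEquiv he h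
  baseChange := by
    intro A B _ _ _ _ φ hφ ρ h P hP σ hσ
    rw [charpoly_adic_baseChangeAlong, h P hP σ hσ]
    simp
  descent := by
    intro A _ _ J B _ _ φ hφ _ hinj _ ρ h P hP σ hσ
    refine Polynomial.ext fun i => sub_eq_zero.mp (hinj _ fun j => ?_)
    have h1 := congrArg (fun f => Polynomial.coeff f i) (h j P hP σ hσ)
    simp only [charpoly_adic_baseChangeAlong, Polynomial.coeff_map] at h1
    rw [map_sub, h1, ← Polynomial.coeff_map]
    simp

theorem isDescending_forall {ι : Type} (c : ι → Prop)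
    (Q : ι → ∀ ⦃A : Type⦄ [CommRing A] [IsLocalRing A], GaloisRepAdic A → Prop)
    (hQ : ∀ i, c i → IsDescending p (Q i)) :
    IsDescending p fun _A _ _ ρ => ∀ i, c i → Q i ρ where
  of_isEquiv := fun _A _ _ _ _ he h i hi => (hQ i hi).of_isEquiv he (h i hi)
  baseChange := fun _A _B _ _ _ _ φ hφ _ h i hi => (hQ i hi).baseChange φ hφ (h i hi)
  descent := fun _A _ _ _J B _ _ φ hφ hp hinj hsep _ h i hi =>
    (hQ i hi).descent B φ hφ hp hinj hsep fun j => h j i hi

theorem isDescending_det_strictOrdinary (hp : p.Prime) (hp2 : p ≠ 2) :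
    IsDescending p fun _A _ _ ρ => ρ.DetIsCyclotomic p ∧ ρ.IsStrictOrdinaryAt p where
  of_isEquiv := fun _A _ _ _ _ he h => ⟨Density.adic_detIsCyclotomic_of_isEquiv he h.1,
    Density.adic_isStrictOrdinaryAt_of_isEquiv he h.2⟩
  baseChange := by
    intro A B _ _ _ _ φ hφ ρ h
    have hB := detIsCyclotomic_baseChangeAlong φ hφ h.1
    let b := Deformation.someBasis ρ
    obtain ⟨b', hb'⟩ := Deformation.exists_basis_baseChangeAlong ρ b φ hφ
    refine ⟨hB, (isStrictOrdinaryAt_iff_eqns _ hp hp2 hB b').mpr fun P hP σ₀ hσ₀ => ?_⟩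
    rw [hb']
    exact ((isStrictOrdinaryAt_iff_eqns ρ hp hp2 h.1 b).mp h.2 P hP σ₀ hσ₀).map φ
  descent := by
    intro A _ _ J B _ _ φ hφ hpA hinj hsep ρ h
    have hA := (isDescending_detIsCyclotomic hp.ne_zero).descent B φ hφ hpA hinj hsep
      fun j => (h j).1
    let b := Deformation.someBasis ρ
    refine ⟨hA, (isStrictOrdinaryAt_iff_eqns ρ hp hp2 hA b).mpr fun P hP σ₀ hσ₀ => ?_⟩
    refine StrictOrdEqns.of_map hp.ne_zero φ hinj hsep fun j => ?_
    obtain ⟨b', hb'⟩ := Deformation.exists_basis_baseChangeAlong ρ b (φ j) (hφ j)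
    rw [← hb']
    exact (isStrictOrdinaryAt_iff_eqns _ hp hp2 (h j).1 b').mp (h j).2 P hP σ₀ hσ₀

end Instances

variable {𝒪 : Type} [CommRing 𝒪] [IsLocalRing 𝒪]

theorem isDescending_unipotent (S' : Finset ℕ) :
    IsDescending p fun _A _ _ ρ => ∀ q ∈ S', q.Prime → q ≠ p → ρ.IsUnipotentOnInertiaAt q :=
  isDescending_forall (· ∈ S') _ fun q _ =>
    isDescending_forall (fun _ : PUnit.{1} => q.Prime) (fun _ _A _ _ ρ =>
      q ≠ p → ρ.IsUnipotentOnInertiaAt q) (fun _ _ =>
      { of_isEquiv := fun _A _ _ _ _ he h hne =>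
          (isDescending_isUnipotentOnInertiaAt (p := p) q).of_isEquiv he (h hne)
        baseChange := fun _A _B _ _ _ _ φ hφ _ h hne =>
          (isDescending_isUnipotentOnInertiaAt (p := p) q).baseChange φ hφ (h hne)
        descent := fun _A _ _ _J B _ _ φ hφ hp hinj hsep _ h hne =>
          (isDescending_isUnipotentOnInertiaAt (p := p) q).descent B φ hφ hp hinj hsep
            fun j => h j hne }) |> fun h =>
      { of_isEquiv := fun _A _ _ _ _ he hQ hq => h.of_isEquiv he (fun _ => hQ) PUnit.unit hq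
        baseChange := fun _A _B _ _ _ _ φ hφ _ hQ hq =>
          h.baseChange φ hφ (fun _ => hQ) PUnit.unit hq
        descent := fun _A _ _ _J B _ _ φ hφ hp hinj hsep _ hQ hq =>
          h.descent B φ hφ hp hinj hsep (fun j _ => hQ j) PUnit.unit hq }

/-- For odd `p` the strict ordinary condition with unipotent inertia on `S'` is a deformation
condition. -/
theorem isDeformationCondition_strictOrdinary (hp : p.Prime) (hp2 : p ≠ 2)
    (hp𝒪 : (p : 𝒪) ∈ maximalIdeal 𝒪) (S S' : Finset ℕ) :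
    GaloisRep.IsDeformationCondition 𝒪 fun _A _ _ _ ρ =>
      GaloisRep.strictOrdinaryCondition 𝒪 p S ρ ∧
        ∀ q ∈ S', q.Prime → q ≠ p → ρ.IsUnipotentOnInertiaAt q := by
  have hU : IsDescending p fun _A _ _ ρ => ∀ q : ℕ, q.Prime ∧ q ∉ S → ρ.IsUnramifiedAt q :=
    isDescending_forall _ _ fun q _ => isDescending_isUnramifiedAt q
  have hall := ((isDescending_det_strictOrdinary hp hp2).and hU).and (isDescending_unipotent S')
  have := hall.isDeformationCondition (𝒪 := 𝒪) hp𝒪
  convert this using 1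
  funext A _ _ _ ρ
  simp only [GaloisRep.strictOrdinaryCondition, and_assoc, and_imp]

end Fermat.Agent.RT
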