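import Fermat.Prelude.Def_GaloisRep_DeformationCondition
import Fermat.Prelude.Def_GaloisRep_Flat
import Fermat.Agent.FiniteFlat.Closure
import Fermat.Agent.Igusa.LocalRat
import Fermat.Agent.Deformation.Matrix
import Fermat.Agent.Density.Transfer
import Fermat.Agent.RT.Chevalley
import Fermat.Agent.RT.LocalAtP.Conditions

/-!
# Flatness is a deformation condition

* `isFlatAt_iff`: flatness in terms of models by algebras of functions.
* `isFlatAt_baseChangeAlong`, `isFlatAt_of_family`: flatness passes to base change and descends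
  along finite jointly injective families.
* `isDeformationCondition_flat`: flatness is a deformation condition.
-/

set_option autoImplicit false
set_option linter.unusedSectionVars false

noncomputable section

open IsLocalRing
open scoped TensorProduct

namespace Fermat.Agent.RT.FlatCond

local notation "ℚ̄" => AlgebraicClosure ℚ
local notation "Γℚ" => (AlgebraicClosure ℚ ≃ₐ[ℚ] AlgebraicClosure ℚ)

variable {A : Type} [CommRing A] [IsLocalRing A]

/-- The level `V / I V` of a representation, as a Galois module. -/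
def LevelV (ρ : GaloisRepAdic A) (I : Ideal A) : Type := ρ.V ⧸ (I • (⊤ : Submodule A ρ.V))

instance (ρ : GaloisRepAdic A) (I : Ideal A) : AddCommGroup (LevelV ρ I) :=
  inferInstanceAs (AddCommGroup (ρ.V ⧸ (I • (⊤ : Submodule A ρ.V))))

instance (ρ : GaloisRepAdic A) (I : Ideal A) : Module A (LevelV ρ I) :=
  inferInstanceAs (Module A (ρ.V ⧸ (I • (⊤ : Submodule A ρ.V))))

/-- The projection to the level `I`. -/
def toLevel (ρ : GaloisRepAdic A) (I : Ideal A) : ρ.V →ₗ[A] LevelV ρ I :=
  (I • (⊤ : Submodule A ρ.V)).mkQ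

theorem toLevel_surjective (ρ : GaloisRepAdic A) (I : Ideal A) :
    Function.Surjective (toLevel ρ I) :=
  Submodule.mkQ_surjective _

theorem toLevel_eq_zero_iff (ρ : GaloisRepAdic A) (I : Ideal A) (v : ρ.V) :
    toLevel ρ I v = 0 ↔ v ∈ I • (⊤ : Submodule A ρ.V) :=
  Submodule.Quotient.mk_eq_zero _

instance (ρ : GaloisRepAdic A) (I : Ideal A) : DistribMulAction Γℚ (LevelV ρ I) where
  smul σ x := ρ.levelAction I σ x
  one_smul x := by
    obtain ⟨v, rfl⟩ := toLevel_surjective ρ I x
    show toLevel ρ I (ρ.ρ 1 v) = toLevel ρ I v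
    rw [map_one, Module.End.one_apply]
  mul_smul σ τ x := by
    obtain ⟨v, rfl⟩ := toLevel_surjective ρ I x
    show toLevel ρ I (ρ.ρ (σ * τ) v) = toLevel ρ I (ρ.ρ σ (ρ.ρ τ v))
    rw [map_mul, Module.End.mul_apply]
  smul_zero σ := (ρ.levelAction I σ).map_zero
  smul_add σ := (ρ.levelAction I σ).map_add

theorem smul_toLevel (ρ : GaloisRepAdic A) (I : Ideal A) (σ : Γℚ) (v : ρ.V) :
    σ • toLevel ρ I v = toLevel ρ I (ρ.ρ σ v) :=
  rfl

theorem finite_levelV (ρ : GaloisRepAdic A) (I : Ideal A) [Finite (A ⧸ I)] :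
    Finite (LevelV ρ I) := by
  let b := Module.finBasisOfFinrankEq A ρ.V ρ.finrank_eq
  choose g hg using fun c : A ⧸ I => Ideal.Quotient.mk_surjective (I := I) c
  refine Finite.of_surjective
    (fun f : Fin 2 → A ⧸ I => toLevel ρ I (∑ i, g (f i) • b i)) fun x => ?_
  obtain ⟨v, rfl⟩ := toLevel_surjective ρ I x
  refine ⟨fun i => Ideal.Quotient.mk I (b.repr v i), ?_⟩
  rw [← sub_eq_zero, ← map_sub, toLevel_eq_zero_iff]
  conv => arg 2; arg 2; rw [← b.sum_repr v]
  rw [← Finset.sum_sub_distrib]
  refine Submodule.sum_mem _ fun i _ => ?_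
  rw [← sub_smul]
  refine Submodule.smul_mem_smul ?_ Submodule.mem_top
  rw [← Ideal.Quotient.eq, hg]

variable {p : ℕ} [Fact p.Prime]

set_option quotPrecheck false in
local notation "Zp" => ↥(GaloisRep.ratLocalizedAt p)

local instance : IsGalois ℚ ℚ̄ :=
  have : IsAlgClosure ℚ ℚ̄ := AlgebraicClosure.instIsAlgClosure ℚ
  IsAlgClosure.isGalois ℚ ℚ̄

/-- The level `I` of `ρ` has a model by functions over `ℤ_(p)`. -/
def HasLevelModel (p : ℕ) (ρ : GaloisRepAdic A) (I : Ideal A) : Prop :=
  FiniteFlat.HasFunctionModel ↥(GaloisRep.ratLocalizedAt p) ℚ ℚ̄ (LevelV ρ I)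

/-- Flatness in terms of models by functions. -/
theorem isFlatAt_iff (ρ : GaloisRepAdic A) :
    ρ.IsFlatAt p ↔ Finite (ResidueField A) ∧
      ∀ I : Ideal A, Finite (A ⧸ I) → HasLevelModel p ρ I := by
  refine ⟨fun h => ⟨h.1, fun I hI => ?_⟩, fun h => ⟨h.1, fun I hI => ?_⟩⟩
  · obtain ⟨H, iH, iHopf, hfin, -, -, e, hadd, hgal⟩ := h.2 I hI
    exact FiniteFlat.hasFunctionModel_of_hopfAlgebra H e hadd hgal
  · obtain ⟨H, hfin, hequiv, hsep, hadd, hneg⟩ := h.2 I hI
    have := finite_levelV ρ I
    exact FiniteFlat.exists_hopfAlgebra_of_functions H hequiv hsep hadd hneg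

section BaseChange

variable {B : Type} [CommRing B] [IsLocalRing B]

/-- The map `v ↦ 1 ⊗ v` between levels. -/
theorem toLevel_one_tmul_eq_zero (φ : A →+* B) (hφ : IsLocalHom φ) (ρ : GaloisRepAdic A)
    {I : Ideal B} {v : ρ.V} (hv : v ∈ I.comap φ • (⊤ : Submodule A ρ.V)) :
    letI := φ.toAlgebra
    toLevel (ρ.baseChangeAlong φ hφ) I ((1 : B) ⊗ₜ[A] v) = 0 := by
  let : Algebra A B := φ.toAlgebra
  refine (toLevel_eq_zero_iff _ _ _).mpr ?_
  refine Submodule.smul_induction_on hv (fun a ha w _ => ?_) (fun x y hx hy => ?_)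
  · rw [TensorProduct.tmul_smul, ← algebraMap_smul B a]
    exact Submodule.smul_mem_smul ha Submodule.mem_top
  · rw [TensorProduct.tmul_add]
    exact add_mem hx hy

/-- The map `v ↦ 1 ⊗ v` from the level `φ⁻¹ I` to the level `I`. -/
def levelMap (φ : A →+* B) (hφ : IsLocalHom φ) (ρ : GaloisRepAdic A) (I : Ideal B) :
    LevelV ρ (I.comap φ) →+ LevelV (ρ.baseChangeAlong φ hφ) I :=
  letI := φ.toAlgebra
  QuotientAddGroup.lift (I.comap φ • (⊤ : Submodule A ρ.V)).toAddSubgroup
    ((toLevel (ρ.baseChangeAlong φ hφ) I).toAddMonoidHom.comp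
      (TensorProduct.mk A B ρ.V 1).toAddMonoidHom)
    fun _v hv => toLevel_one_tmul_eq_zero φ hφ ρ hv

theorem levelMap_toLevel (φ : A →+* B) (hφ : IsLocalHom φ) (ρ : GaloisRepAdic A) (I : Ideal B)
    (v : ρ.V) :
    letI := φ.toAlgebra
    levelMap φ hφ ρ I (toLevel ρ (I.comap φ) v) =
      toLevel (ρ.baseChangeAlong φ hφ) I ((1 : B) ⊗ₜ[A] v) :=
  rfl

theorem levelMap_smul (φ : A →+* B) (hφ : IsLocalHom φ) (ρ : GaloisRepAdic A) (I : Ideal B)
    (σ : Γℚ) (x : LevelV ρ (I.comap φ)) :
    levelMap φ hφ ρ I (σ • x) = σ • levelMap φ hφ ρ I x := by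
  let : Algebra A B := φ.toAlgebra
  obtain ⟨v, rfl⟩ := toLevel_surjective ρ _ x
  rfl

theorem levelMap_injective (φ : A →+* B) (hφ : IsLocalHom φ) (ρ : GaloisRepAdic A) (I : Ideal B) :
    Function.Injective (levelMap φ hφ ρ I) := by
  let : Algebra A B := φ.toAlgebra
  let b := Module.finBasisOfFinrankEq A ρ.V ρ.finrank_eq
  refine (injective_iff_map_eq_zero _).mpr fun x hx => ?_
  obtain ⟨v, rfl⟩ := toLevel_surjective ρ _ x
  replace hx : ((1 : B) ⊗ₜ[A] v) ∈ I • (⊤ : Submodule B (B ⊗[A] ρ.V)) :=
    (toLevel_eq_zero_iff _ _ _).mp hx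
  refine (toLevel_eq_zero_iff _ _ _).mpr ?_
  rw [← b.sum_repr v]
  refine Submodule.sum_mem _ fun i _ => Submodule.smul_mem_smul ?_ Submodule.mem_top
  have hco : ∀ y ∈ I • (⊤ : Submodule B (B ⊗[A] ρ.V)),
      (Algebra.TensorProduct.basis B b).repr y i ∈ I := by
    intro y hy
    refine Submodule.smul_induction_on hy (fun a ha w _ => ?_) (fun x y hx hy => ?_)
    · rw [map_smul, Finsupp.smul_apply, smul_eq_mul]
      exact Ideal.mul_mem_right _ _ ha
    · rw [map_add, Finsupp.add_apply]
      exact add_mem hx hy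
  have h0 := hco _ hx
  rw [Algebra.TensorProduct.basis_repr_tmul] at h0
  show φ (b.repr v i) ∈ I
  simpa [RingHom.algebraMap_toAlgebra] using h0

/-- A level of a base change has a model if the pulled back level has one. -/
theorem hasLevelModel_baseChangeAlong (φ : A →+* B) (hφ : IsLocalHom φ) (ρ : GaloisRepAdic A)
    (I : Ideal B) [Finite (B ⧸ I)] (h : HasLevelModel p ρ (I.comap φ)) :
    HasLevelModel p (ρ.baseChangeAlong φ hφ) I := by
  classical
  let : Algebra A B := φ.toAlgebra
  have : Finite (A ⧸ I.comap φ) :=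
    Finite.of_injective _ (Ideal.quotientMap_injective (I := I) (f := φ))
  have := finite_levelV ρ (I.comap φ)
  obtain ⟨m, ⟨enum⟩⟩ := Finite.exists_equiv_fin (B ⧸ I)
  choose g hg using fun c : B ⧸ I => Ideal.Quotient.mk_surjective (I := I) c
  let b : Fin m → B := fun i => g (enum.symm i)
  let q : (Fin m → LevelV ρ (I.comap φ)) →+ LevelV (ρ.baseChangeAlong φ hφ) I :=
    { toFun := fun v => ∑ i, b i • levelMap φ hφ ρ I (v i)
      map_zero' := by simp
      map_add' := fun v w => by simp [smul_add, Finset.sum_add_distrib] }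
  have hq : Function.Surjective q := by
    intro y
    obtain ⟨y, rfl⟩ := toLevel_surjective _ I y
    change B ⊗[A] ρ.V at y
    induction y using TensorProduct.induction_on with
    | zero => exact ⟨0, by rw [map_zero]; exact (map_zero _).symm⟩
    | tmul c v =>
      refine ⟨Pi.single (enum (Ideal.Quotient.mk I c)) (toLevel ρ _ v), ?_⟩
      show ∑ i, b i • levelMap φ hφ ρ I _ = _
      rw [Finset.sum_eq_single (enum (Ideal.Quotient.mk I c)), Pi.single_eq_same,
        levelMap_toLevel]
      · refine ((toLevel (ρ.baseChangeAlong φ hφ) I).map_smul _ _).symm.trans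
          (sub_eq_zero.mp (((toLevel (ρ.baseChangeAlong φ hφ) I).map_sub _ _).symm.trans
            ((toLevel_eq_zero_iff _ _ _).mpr ?_)))
        show (b _ • ((1 : B) ⊗ₜ[A] v) - c ⊗ₜ[A] v : B ⊗[A] ρ.V) ∈
          I • (⊤ : Submodule B (B ⊗[A] ρ.V))
        rw [TensorProduct.smul_tmul', smul_eq_mul, mul_one]
        rw [← TensorProduct.sub_tmul, ← mul_one (b _ - c), ← smul_eq_mul,
          ← TensorProduct.smul_tmul']
        refine Submodule.smul_mem_smul ?_ Submodule.mem_top
        rw [← Ideal.Quotient.eq]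
        simp only [b, Equiv.symm_apply_apply, hg]
      · intro i _ hi
        rw [Pi.single_eq_of_ne hi, map_zero, smul_zero]
      · intro hni
        exact absurd (Finset.mem_univ _) hni
    | add y z hy hz =>
      obtain ⟨v, hv⟩ := hy
      obtain ⟨w, hw⟩ := hz
      exact ⟨v + w, by rw [map_add, hv, hw]; exact (map_add _ _ _).symm⟩
  refine (h.pi m).of_surjective q hq fun σ v => ?_
  show ∑ i, b i • levelMap φ hφ ρ I ((σ • v) i) = σ • ∑ i, b i • levelMap φ hφ ρ I (v i)
  rw [Finset.smul_sum]
  refine Finset.sum_congr rfl fun i _ => ?_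
  rw [Pi.smul_apply, levelMap_smul]
  exact ((GaloisRepAdic.levelAction (ρ.baseChangeAlong φ hφ) I σ).map_smul (b i) _).symm

/-- Flatness passes to base change with finite residue field. -/
theorem isFlatAt_baseChangeAlong (φ : A →+* B) (hφ : IsLocalHom φ) {ρ : GaloisRepAdic A}
    [Finite (ResidueField B)] (h : ρ.IsFlatAt p) : (ρ.baseChangeAlong φ hφ).IsFlatAt p := by
  rw [isFlatAt_iff] at h ⊢
  refine ⟨inferInstance, fun I hI => ?_⟩
  exact hasLevelModel_baseChangeAlong φ hφ ρ I
    (h.2 _ (Finite.of_injective _ (Ideal.quotientMap_injective (I := I) (f := φ))))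

end BaseChange

section Descent

/-- An Artinian local ring with finite residue field is finite. -/
theorem finite_of_isArtinianRing (R : Type) [CommRing R] [IsLocalRing R] [IsArtinianRing R]
    [Finite (ResidueField R)] : Finite R := by
  obtain ⟨n, hn⟩ := (isArtinianRing_iff_isNilpotent_maximalIdeal R).mp ‹_›
  have : Finite (R ⧸ maximalIdeal R) := inferInstanceAs (Finite (ResidueField R))
  have hfin := Ideal.finite_quotient_pow (IsNoetherian.noetherian (maximalIdeal R)) n
  rw [hn] at hfin
  exact Finite.of_equiv _ (RingEquiv.quotientBot R).toEquiv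

/-- A quotient level of a level with a model has a model. -/
theorem HasLevelModel.mono {ρ : GaloisRepAdic A} {I J : Ideal A} [Finite (A ⧸ I)] (hIJ : I ≤ J)
    (h : HasLevelModel p ρ I) : HasLevelModel p ρ J := by
  have := finite_levelV ρ I
  let q : LevelV ρ I →+ LevelV ρ J :=
    (Submodule.factor (Submodule.smul_mono_left hIJ)).toAddMonoidHom
  have hmk : ∀ v, q (toLevel ρ I v) = toLevel ρ J v := fun v => rfl
  refine h.of_surjective q (fun y => ?_) fun σ x => ?_
  · obtain ⟨v, rfl⟩ := toLevel_surjective ρ J y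
    exact ⟨_, hmk v⟩
  · obtain ⟨v, rfl⟩ := toLevel_surjective ρ I x
    rfl

/-- A pulled back level has a model if the level of the base change has one. -/
theorem hasLevelModel_comap {B : Type} [CommRing B] [IsLocalRing B] (φ : A →+* B)
    (hφ : IsLocalHom φ) {ρ : GaloisRepAdic A} {I : Ideal B}
    (h : HasLevelModel p (ρ.baseChangeAlong φ hφ) I) : HasLevelModel p ρ (I.comap φ) :=
  h.of_injective (levelMap φ hφ ρ I) (levelMap_injective φ hφ ρ I) (levelMap_smul φ hφ ρ I)

/-- Models of finitely many levels give a model of their intersection. -/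
theorem hasLevelModel_iInf {ρ : GaloisRepAdic A} {ι : Type} (K : ι → Ideal A) (s : Finset ι)
    (h : ∀ i ∈ s, HasLevelModel p ρ (K i)) : HasLevelModel p ρ (⨅ i ∈ s, K i) := by
  classical
  induction s using Finset.induction_on with
  | empty =>
    have : Subsingleton (LevelV ρ (⨅ i ∈ (∅ : Finset ι), K i)) := by
      refine subsingleton_of_forall_eq 0 fun x => ?_
      obtain ⟨v, rfl⟩ := toLevel_surjective ρ _ x
      rw [toLevel_eq_zero_iff]
      simp
    exact FiniteFlat.hasFunctionModel_of_subsingleton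
  | insert j s hjs ih =>
    rw [Finset.iInf_insert]
    set K₁ := K j with hK₁
    set K₂ := ⨅ i ∈ s, K i with hK₂
    have h₁ : HasLevelModel p ρ K₁ := h j (Finset.mem_insert_self j s)
    have h₂ : HasLevelModel p ρ K₂ := ih fun i hi => h i (Finset.mem_insert_of_mem hi)
    refine (h₁.prod h₂).of_injective
      (((Submodule.factor (Submodule.smul_mono_left inf_le_left)).toAddMonoidHom).prod
        (Submodule.factor (Submodule.smul_mono_left inf_le_right)).toAddMonoidHom :
          LevelV ρ (K₁ ⊓ K₂) →+ LevelV ρ K₁ × LevelV ρ K₂) ?_ ?_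
    · let b := Module.finBasisOfFinrankEq A ρ.V ρ.finrank_eq
      refine (injective_iff_map_eq_zero _).mpr fun x hx => ?_
      obtain ⟨v, rfl⟩ := toLevel_surjective ρ _ x
      obtain ⟨hx₁, hx₂⟩ := Prod.ext_iff.mp hx
      replace hx₁ : toLevel ρ K₁ v = 0 := hx₁
      replace hx₂ : toLevel ρ K₂ v = 0 := hx₂
      rw [toLevel_eq_zero_iff] at hx₁ hx₂ ⊢
      have hco : ∀ {K : Ideal A}, v ∈ K • (⊤ : Submodule A ρ.V) → ∀ i, b.repr v i ∈ K := by
        intro K hv i
        refine Submodule.smul_induction_on hv (fun a ha w _ => ?_) (fun x y hx hy => ?_)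
        · rw [map_smul, Finsupp.smul_apply, smul_eq_mul]
          exact Ideal.mul_mem_right _ _ ha
        · rw [map_add, Finsupp.add_apply]
          exact add_mem hx hy
      rw [← b.sum_repr v]
      exact Submodule.sum_mem _ fun i _ =>
        Submodule.smul_mem_smul ⟨hco hx₁ i, hco hx₂ i⟩ Submodule.mem_top
    · intro σ x
      obtain ⟨v, rfl⟩ := toLevel_surjective ρ _ x
      rfl

/-- Flatness descends along finite jointly injective families to finite rings. -/
theorem isFlatAt_of_family [Finite A] {J : Type} [Finite J] {B : J → Type}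
    [∀ j, CommRing (B j)] [∀ j, IsLocalRing (B j)] [∀ j, Finite (B j)]
    (φ : ∀ j, A →+* B j) (hφ : ∀ j, IsLocalHom (φ j))
    (hinj : ∀ x : A, (∀ j, φ j x = 0) → x = 0) {ρ : GaloisRepAdic A}
    (h : ∀ j, (ρ.baseChangeAlong (φ j) (hφ j)).IsFlatAt p) : ρ.IsFlatAt p := by
  classical
  rw [isFlatAt_iff]
  have hrf : Finite (ResidueField A) := Finite.of_surjective _ residue_surjective
  have : Finite (A ⧸ (⊥ : Ideal A)) := Finite.of_surjective _ Ideal.Quotient.mk_surjective
  refine ⟨hrf, fun I _ => HasLevelModel.mono bot_le ?_⟩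
  have := Fintype.ofFinite J
  have hbot : (⨅ j ∈ (Finset.univ : Finset J), (⊥ : Ideal (B j)).comap (φ j)) = ⊥ := by
    rw [eq_bot_iff]
    intro x hx
    simp only [Submodule.mem_iInf, Ideal.mem_comap, Ideal.mem_bot] at hx
    exact hinj x fun j => hx j (Finset.mem_univ j)
  rw [← hbot]
  exact hasLevelModel_iInf _ _ fun j _ => hasLevelModel_comap _ (hφ j)
    (((isFlatAt_iff _).mp (h j)).2 ⊥ (Finite.of_surjective _ Ideal.Quotient.mk_surjective))

/-- A power of the maximal ideal lies in every ideal of finite index. -/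
theorem exists_maximalIdeal_pow_le (I : Ideal A) [Finite (A ⧸ I)] :
    ∃ k, maximalIdeal A ^ k ≤ I := by
  rcases eq_or_ne I ⊤ with rfl | hItop
  · exact ⟨0, le_top⟩
  have : Nontrivial (A ⧸ I) := Ideal.Quotient.nontrivial_iff.mpr hItop
  have : IsLocalRing (A ⧸ I) :=
    IsLocalRing.of_surjective' (Ideal.Quotient.mk I) Ideal.Quotient.mk_surjective
  obtain ⟨k, hk⟩ := (isArtinianRing_iff_isNilpotent_maximalIdeal (A ⧸ I)).mp inferInstance
  refine ⟨k, fun x hx => ?_⟩
  rw [← Ideal.Quotient.eq_zero_iff_mem, ← Submodule.mem_bot (A ⧸ I), ← Ideal.zero_eq_bot, ← hk]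
  have h1 := Ideal.mem_map_of_mem (Ideal.Quotient.mk I) hx
  rw [Ideal.map_pow] at h1
  refine Ideal.pow_right_mono (Ideal.map_le_iff_le_comap.mpr fun y hy => ?_) _ h1
  exact fun hu => hy ((IsLocalHom.of_surjective _
    (Ideal.Quotient.mk_surjective (I := I))).map_nonunit y hu)

/-- Flatness on a complete ring follows from flatness at jointly injective points. -/
theorem isFlatAt_of_points [IsNoetherianRing A] [IsAdicComplete (maximalIdeal A) A]
    [Finite (ResidueField A)] {J : Type} [Finite J] {B : J → Type}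
    [∀ j, CommRing (B j)] [∀ j, IsLocalRing (B j)] [∀ j, IsNoetherianRing (B j)]
    (φ : ∀ j, A →+* B j) (hφ : ∀ j, IsLocalHom (φ j))
    (hinj : ∀ x : A, (∀ j, φ j x = 0) → x = 0) {ρ : GaloisRepAdic A}
    (h : ∀ j, (ρ.baseChangeAlong (φ j) (hφ j)).IsFlatAt p) : ρ.IsFlatAt p := by
  classical
  rw [isFlatAt_iff]
  refine ⟨inferInstance, fun I hI => ?_⟩
  obtain ⟨k, hk⟩ := exists_maximalIdeal_pow_le I
  obtain ⟨n, hn⟩ := exists_forall_mem_pow_imp φ hinj k
  have := Fintype.ofFinite J
  let K : J → Ideal A := fun j => (maximalIdeal (B j) ^ n).comap (φ j)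
  have hle : (⨅ j ∈ (Finset.univ : Finset J), K j) ≤ I := fun x hx => by
    simp only [Submodule.mem_iInf, K, Ideal.mem_comap] at hx
    exact hk (hn x fun j => hx j (Finset.mem_univ j))
  have hfinB : ∀ j, Finite (B j ⧸ maximalIdeal (B j) ^ n) := fun j => by
    have : Finite (B j ⧸ maximalIdeal (B j)) := (h j).1
    exact Ideal.finite_quotient_pow (IsNoetherian.noetherian (maximalIdeal (B j))) n
  let Φ : A →+* ∀ j, B j ⧸ maximalIdeal (B j) ^ n :=
    RingHom.pi fun j => (Ideal.Quotient.mk _).comp (φ j)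
  have hker : RingHom.ker Φ = ⨅ j ∈ (Finset.univ : Finset J), K j := by
    ext x
    simp [Φ, K, funext_iff, RingHom.mem_ker, Ideal.Quotient.eq_zero_iff_mem]
  have : Finite (A ⧸ ⨅ j ∈ (Finset.univ : Finset J), K j) := by
    rw [← hker]
    exact Finite.of_injective _ (RingHom.kerLift_injective Φ)
  exact HasLevelModel.mono hle (hasLevelModel_iInf K _ fun j _ =>
    hasLevelModel_comap _ (hφ j) (((isFlatAt_iff _).mp (h j)).2 _ (hfinB j)))

end Descent

/-- Flatness is a deformation condition. -/
theorem isDeformationCondition_flat {𝒪 : Type} [CommRing 𝒪] [IsLocalRing 𝒪] :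
    GaloisRep.IsDeformationCondition 𝒪 fun _A _ _ _ ρ => ρ.IsFlatAt p where
  of_isEquiv := fun _A _ _ _ _ _ _ he h => Density.adic_isFlatAt_of_isEquiv he h
  baseChangeAlong := by
    intro A B _ _ _ _ _ _ hA hB φ hφ ρ h
    have : Finite (ResidueField A) := h.1
    have : Finite (ResidueField B) := by
      refine Finite.of_surjective (ResidueField.map (φ : A →+* B)) fun y => ?_
      obtain ⟨a, rfl⟩ := hB.residue_surjective y
      exact ⟨residue A (algebraMap 𝒪 A a), by simp⟩
    exact isFlatAt_baseChangeAlong _ hφ h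
  of_baseChangeAlong_injective := by
    intro A B _ _ _ _ _ _ hA hB φ hφ hinj ρ h
    have := hA.isArtinian
    have := hB.isArtinian
    have : Finite (ResidueField B) := h.1
    have : Finite (ResidueField A) :=
      Finite.of_injective _ (ResidueField.map (φ : A →+* B)).injective
    have := finite_of_isArtinianRing A
    have := finite_of_isArtinianRing B
    exact isFlatAt_of_family (J := Unit) (B := fun _ => B) (fun _ => (φ : A →+* B))
      (fun _ => hφ) (fun x hx => hinj ((hx ()).trans (map_zero φ).symm)) fun _ => h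
  of_fibreProduct := by
    intro A B C P iA iLA _ iB iLB _ _ _ _ _ _ _ hA hB _ hP f g pA pB hpA hpB _ hinj _ ρ ha hb
    have := hA.isArtinian
    have := hB.isArtinian
    have := hP.isArtinian
    have : Finite (ResidueField A) := ha.1
    have : Finite (ResidueField B) := hb.1
    have : Finite (ResidueField P) :=
      Finite.of_injective _ (ResidueField.map (pA : P →+* A)).injective
    have := finite_of_isArtinianRing A
    have := finite_of_isArtinianRing B
    have := finite_of_isArtinianRing P
    let F : Bool → Type := fun b => cond b A B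
    let iR : ∀ b, CommRing (F b) := fun b =>
      match b with
      | true => iA
      | false => iB
    let iL : ∀ b, IsLocalRing (F b) := fun b =>
      match b with
      | true => iLA
      | false => iLB
    have iF : ∀ b, Finite (F b) := fun b =>
      match b with
      | true => inferInstanceAs (Finite A)
      | false => inferInstanceAs (Finite B)
    let ψ : ∀ b, P →+* F b := fun b =>
      match b with
      | true => (pA : P →+* A)
      | false => (pB : P →+* B)
    exact isFlatAt_of_family ψ (fun b => match b with | true => hpA | false => hpB)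
      (fun x hx => hinj (by
        have h1 : pA x = 0 := hx true
        have h2 : pB x = 0 := hx false
        simp [h1, h2]))
      (fun b => match b with | true => ha | false => hb)
  iff_forall_surjective := by
    intro A _ _ _ _ _ hloc hres ρ
    refine ⟨fun h B _ _ _ hB q hq hqs => ?_, fun h => ?_⟩
    · have : Finite (ResidueField A) := h.1
      have : Finite (ResidueField B) :=
        Finite.of_surjective (ResidueField.map (q : A →+* B)) fun y => by
          obtain ⟨y, rfl⟩ := residue_surjective y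
          obtain ⟨x, rfl⟩ := hqs y
          exact ⟨residue A x, rfl⟩
      exact isFlatAt_baseChangeAlong _ hq h
    · have key : ∀ k : ℕ, ∃ (_ : IsLocalRing (A ⧸ maximalIdeal A ^ (k + 1)))
          (hq : IsLocalHom (Ideal.Quotient.mk (maximalIdeal A ^ (k + 1)))),
          (ρ.baseChangeAlong (Ideal.Quotient.mk _) hq).IsFlatAt p := by
        intro k
        have hne : maximalIdeal A ^ (k + 1) ≠ ⊤ := fun htop =>
          (Ideal.IsMaximal.ne_top (I := maximalIdeal A) inferInstance)
            (top_le_iff.mp (htop ▸ Ideal.pow_le_self k.succ_ne_zero))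
        have : Nontrivial (A ⧸ maximalIdeal A ^ (k + 1)) := Ideal.Quotient.nontrivial_iff.mpr hne
        have hlr : IsLocalRing (A ⧸ maximalIdeal A ^ (k + 1)) :=
          IsLocalRing.of_surjective' (Ideal.Quotient.mk _) Ideal.Quotient.mk_surjective
        have hq : IsLocalHom (Ideal.Quotient.mk (maximalIdeal A ^ (k + 1))) :=
          IsLocalHom.of_surjective _ Ideal.Quotient.mk_surjective
        refine ⟨hlr, hq, h (B := A ⧸ maximalIdeal A ^ (k + 1)) ⟨?_, ?_, ?_⟩
          (Ideal.Quotient.mkₐ 𝒪 _) hq Ideal.Quotient.mk_surjective⟩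
        · exact ⟨fun a ha => hloc.map_nonunit a (hq.map_nonunit _ (by simpa using ha))⟩
        · intro y
          obtain ⟨z, rfl⟩ := IsLocalRing.residue_surjective y
          obtain ⟨x, rfl⟩ := Ideal.Quotient.mk_surjective z
          obtain ⟨o, ho⟩ := hres (IsLocalRing.residue A x)
          refine ⟨o, ?_⟩
          have := congrArg
            (IsLocalRing.ResidueField.map (Ideal.Quotient.mk (maximalIdeal A ^ (k + 1)))) ho
          simpa using this
        · exact isArtinianRing_quotient_maximalIdeal_pow (k + 1)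
      have hfin : Finite (ResidueField A) := by
        obtain ⟨_, hq, h1⟩ := key 0
        have := h1.1
        exact Finite.of_injective _
          (ResidueField.map (Ideal.Quotient.mk (maximalIdeal A ^ (0 + 1)))).injective
      rw [isFlatAt_iff]
      refine ⟨hfin, fun I hI => ?_⟩
      obtain ⟨k, hk⟩ := exists_maximalIdeal_pow_le I
      have hle : maximalIdeal A ^ (k + 1) ≤ I :=
        (Ideal.pow_le_pow_right k.le_succ).trans hk
      obtain ⟨_, hq, hflat⟩ := key k
      let φ := Ideal.Quotient.mk (maximalIdeal A ^ (k + 1))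
      have hc : (I.map φ).comap φ = I := by
        rw [Ideal.comap_map_of_surjective _ Ideal.Quotient.mk_surjective, sup_eq_left,
          ← RingHom.ker_eq_comap_bot, Ideal.mk_ker]
        exact hle
      have : Finite (ResidueField (A ⧸ maximalIdeal A ^ (k + 1))) := hflat.1
      have := isArtinianRing_quotient_maximalIdeal_pow (A := A) (k + 1)
      have := finite_of_isArtinianRing (A ⧸ maximalIdeal A ^ (k + 1))
      have : Finite ((A ⧸ maximalIdeal A ^ (k + 1)) ⧸ I.map φ) :=
        Finite.of_surjective _ Ideal.Quotient.mk_surjective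
      have hB := ((isFlatAt_iff _).mp hflat).2 (I.map φ) inferInstance
      rw [← hc]
      exact hB.of_injective (P := LevelV ρ ((I.map φ).comap φ))
        (levelMap φ hq ρ (I.map φ)) (levelMap_injective _ _ _ _) (levelMap_smul _ _ _ _)

/-- The flat condition, with unipotent inertia on `S'`, is a deformation condition. -/
theorem isDeformationCondition_flatCondition {𝒪 : Type} [CommRing 𝒪] [IsLocalRing 𝒪]
    (hp𝒪 : (p : 𝒪) ∈ maximalIdeal 𝒪) (S S' : Finset ℕ) :
    GaloisRep.IsDeformationCondition 𝒪 fun _A _ _ _ ρ =>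
      GaloisRep.flatCondition 𝒪 p S ρ ∧
        ∀ q ∈ S', q.Prime → q ≠ p → ρ.IsUnipotentOnInertiaAt q := by
  have hU : IsDescending p fun _A _ _ ρ => ∀ q : ℕ, q.Prime ∧ q ∉ S → ρ.IsUnramifiedAt q :=
    isDescending_forall _ _ fun q _ => isDescending_isUnramifiedAt q
  have hall := (((isDescending_detIsCyclotomic (p := p) (Fact.out : p.Prime).ne_zero).and hU).and
    (isDescending_unipotent S')).isDeformationCondition (𝒪 := 𝒪) hp𝒪
  have := isDeformationCondition_and (𝒪 := 𝒪) hall (isDeformationCondition_flat (p := p))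
  convert this using 1
  funext A _ _ _ ρ
  simp only [GaloisRep.flatCondition, and_imp, eq_iff_iff]
  tauto

end Fermat.Agent.RT.FlatCond
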