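import Fermat.Agent.EC.Mult.Ramification
import Fermat.Agent.EC.Det.CyclotomicChar
import Mathlib.RingTheory.Polynomial.Cyclotomic.Eval
import Mathlib.FieldTheory.Galois.Infinite
import Mathlib.FieldTheory.KummerExtension
import Mathlib.LinearAlgebra.LinearIndependent.Defs
import Mathlib.Algebra.CharP.Algebra

/-!
# Kummer theory on the decomposition field at `p`

For an odd prime `p` and a place `P` of `ℚ̄` over `p`, the continuous cocycles of the decomposition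
group with values in a vector space of characteristic `p` on which it acts through the cyclotomic
character are spanned, up to coboundaries, by the Kummer cocycles of `p` and of `1 + p`.
-/

set_option autoImplicit false

noncomputable section

namespace Fermat.Agent.RT.LocalKummer

local notation "ℚ̄" => AlgebraicClosure ℚ
local notation "Γℚ" => (AlgebraicClosure ℚ ≃ₐ[ℚ] AlgebraicClosure ℚ)

local instance : Normal ℚ ℚ̄ :=
  have : IsAlgClosure ℚ ℚ̄ := AlgebraicClosure.instIsAlgClosure ℚ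
  IsAlgClosure.normal ℚ ℚ̄

variable {p : ℕ} {P : ValuationSubring ℚ̄}

section Zeta

variable {ζ : ℚ̄}

theorem prod_one_sub_pow (hp : p.Prime) (hζ : IsPrimitiveRoot ζ p) :
    ∏ k ∈ Finset.Ico 1 p, (1 - ζ ^ k) = (p : ℚ̄) := by
  have : Fact p.Prime := ⟨hp⟩
  have h := Polynomial.eval_one_cyclotomic_prime (R := ℚ̄) (p := p)
  rw [Polynomial.cyclotomic_eq_prod_X_sub_primitiveRoots hζ, Polynomial.eval_prod] at h
  rw [← h]
  refine Finset.prod_bij (fun k _ => ζ ^ k) ?_ ?_ ?_ (fun k _ => by simp)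
  · intro k hk
    rw [Finset.mem_Ico] at hk
    rw [mem_primitiveRoots hp.pos]
    exact hζ.pow_of_coprime k
      ((hp.coprime_iff_not_dvd.mpr (Nat.not_dvd_of_pos_of_lt hk.1 hk.2)).symm)
  · intro a ha b hb hab
    rw [Finset.mem_Ico] at ha hb
    exact hζ.pow_inj ha.2 hb.2 hab
  · intro x hx
    rw [mem_primitiveRoots hp.pos] at hx
    obtain ⟨i, hi, rfl⟩ := hζ.eq_pow_of_pow_eq_one hx.pow_eq_one
    refine ⟨i, Finset.mem_Ico.mpr ⟨Nat.one_le_iff_ne_zero.mpr ?_, hi⟩, rfl⟩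
    rintro rfl
    exact hx.ne_one hp.one_lt (pow_zero ζ)

theorem valuation_one_sub_pow (hp : p.Prime) (hζ : IsPrimitiveRoot ζ p) {k : ℕ}
    (hk : ¬ p ∣ k) : P.valuation (1 - ζ ^ k) = P.valuation (1 - ζ) := by
  have hle : ∀ (x : ℚ̄) (j : ℕ), x ^ p = 1 → P.valuation (1 - x ^ j) ≤ P.valuation (1 - x) := by
    intro x j hx
    rw [← geom_sum_mul_neg, map_mul]
    refine mul_le_of_le_one_left zero_le ((P.valuation_le_one_iff _).mpr ?_)
    exact sum_mem fun i _ => pow_mem (EC.mem_of_pow_eq_one P hp.ne_zero hx) i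
  have : NeZero p := ⟨hp.ne_zero⟩
  refine le_antisymm (hle ζ k hζ.pow_eq_one) ?_
  obtain ⟨j, -, hj⟩ := (hζ.pow_of_coprime k
    ((hp.coprime_iff_not_dvd.mpr hk).symm)).eq_pow_of_pow_eq_one hζ.pow_eq_one
  calc P.valuation (1 - ζ) = P.valuation (1 - (ζ ^ k) ^ j) := by rw [hj]
    _ ≤ _ := hle _ j (by rw [← pow_mul, mul_comm, pow_mul, hζ.pow_eq_one, one_pow])

theorem valuation_one_sub_zeta_pow (hp : p.Prime) (hζ : IsPrimitiveRoot ζ p) :
    P.valuation (1 - ζ) ^ (p - 1) = P.valuation (p : ℚ̄) := by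
  rw [← prod_one_sub_pow hp hζ, map_prod, Finset.prod_congr rfl fun k hk =>
    valuation_one_sub_pow (P := P) hp hζ (Nat.not_dvd_of_pos_of_lt (Finset.mem_Ico.mp hk).1
      (Finset.mem_Ico.mp hk).2), Finset.prod_const, Nat.card_Ico]

end Zeta

/-- `x` is fixed by the decomposition group. -/
def IsFixed (P : ValuationSubring ℚ̄) (x : ℚ̄) : Prop :=
  ∀ σ ∈ P.decompositionSubgroup ℚ, σ x = x

theorem IsFixed.natCast (n : ℕ) : IsFixed P (n : ℚ̄) := fun σ _ => map_natCast σ n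

theorem IsFixed.zpow {x : ℚ̄} (hx : IsFixed P x) (i : ℤ) : IsFixed P (x ^ i) :=
  fun σ hσ => by rw [map_zpow₀, hx σ hσ]

/-- A fixed element that is `≡ 1` modulo `p²` is the `p`-th power of a fixed element. -/
theorem exists_pow_eq_of_sub_one_le (hp : p.Prime) (hp2 : p ≠ 2) (hP : P.LiesOverPrime p) {u : ℚ̄}
    (hu : P.valuation u = 1) (hfix : IsFixed P u)
    (h : P.valuation (u - 1) ≤ P.valuation (p : ℚ̄) ^ 2) :
    ∃ z : ℚ̄, z ≠ 0 ∧ IsFixed P z ∧ z ^ p = u := by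
  have : NeZero p := ⟨hp.ne_zero⟩
  obtain ⟨ζ, hζ⟩ := EC.exists_primitiveRoot_qbar p
  set ε := P.valuation (1 - ζ) with hε
  have hεp := valuation_one_sub_zeta_pow (P := P) hp hζ
  have hε0 : 0 < ε := zero_lt_iff.mpr (P.valuation.ne_zero_iff.mpr
    (sub_ne_zero.mpr (hζ.ne_one hp.one_lt).symm))
  have hε1 : ε < 1 := by
    by_contra hge
    have := one_le_pow₀ (not_lt.mp hge) (n := p - 1)
    rw [hεp] at this
    exact not_lt.mpr this (EC.Mult.valuation_natCast_lt_one hP)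
  obtain ⟨z, hz⟩ := IsAlgClosed.exists_pow_nat_eq u hp.pos
  -- some root is closer to one than `ζ`
  have hprod : ∏ i ∈ Finset.range p, (1 - ζ ^ i * z) = 1 - u := by
    have h := congrArg (Polynomial.eval 1) (X_pow_sub_C_eq_prod hζ hp.pos hz)
    simpa [Polynomial.eval_prod] using h.symm
  obtain ⟨i, hi, hlt⟩ : ∃ i ∈ Finset.range p, P.valuation (1 - ζ ^ i * z) < ε := by
    by_contra! hall
    have h1 : ε ^ p ≤ P.valuation (u - 1) := by
      rw [Valuation.map_sub_swap, ← hprod, map_prod]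
      conv_lhs => rw [← Finset.card_range p, ← Finset.prod_const]
      exact Finset.prod_le_prod' hall
    have h2 : ε ^ (2 * (p - 1)) < ε ^ p := by
      have := hp.two_le
      exact pow_lt_pow_right_of_lt_one₀ hε0 hε1 (by omega)
    rw [mul_comm, pow_mul, hεp] at h2
    exact not_lt.mpr (h1.trans h) h2
  refine ⟨ζ ^ i * z, ?_, fun σ hσ => ?_, ?_⟩
  · intro h0
    rw [h0, sub_zero, map_one] at hlt
    exact lt_asymm hlt hε1
  · set w := ζ ^ i * z with hw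
    have hwp : w ^ p = u := by
      rw [hw, mul_pow, ← pow_mul, mul_comm i p, pow_mul, hζ.pow_eq_one, one_pow, one_mul, hz]
    have hw0 : w ≠ 0 := fun h0 => by rw [h0, sub_zero, map_one] at hlt; exact lt_asymm hlt hε1
    have hwval : P.valuation w = 1 :=
      (pow_eq_one_iff_left hp.ne_zero).mp (by rw [← map_pow, hwp, hu])
    have hσlt : P.valuation (1 - σ w) < ε := by
      rw [← map_one σ, ← map_sub, EC.Mult.valuation_apply hσ]
      exact hlt
    have hdiff : P.valuation (σ w - w) < ε := by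
      rw [show σ w - w = (1 - w) - (1 - σ w) by ring]
      exact lt_of_le_of_lt (Valuation.map_sub _ _ _) (max_lt hlt hσlt)
    have hpow : (σ w / w) ^ p = 1 := by
      rw [div_pow, ← map_pow, hwp, hfix σ hσ, div_self]
      rw [← hwp]; exact pow_ne_zero p hw0
    obtain ⟨j, hj, hjeq⟩ := hζ.eq_pow_of_pow_eq_one hpow
    by_contra hne
    have hj0 : ¬ p ∣ j := fun hd => hne (by
      rw [Nat.eq_zero_of_dvd_of_lt hd hj, pow_zero] at hjeq
      exact (div_eq_one_iff_eq hw0).mp hjeq.symm)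
    have : σ w - w = -((1 - ζ ^ j) * w) := by
      rw [hjeq]; field_simp; ring
    rw [this, Valuation.map_neg, map_mul, valuation_one_sub_pow hp hζ hj0, hwval, mul_one] at hdiff
    exact lt_irrefl _ hdiff
  · rw [mul_pow, ← pow_mul, mul_comm i p, pow_mul, hζ.pow_eq_one, one_pow, one_mul, hz]

/-- A fixed non-unit is divisible by `p`. -/
theorem valuation_le_of_lt_one (hp : p.Prime) (hP : P.LiesOverPrime p) {x : ℚ̄}
    (hfix : IsFixed P x) (h : P.valuation x < 1) : P.valuation x ≤ P.valuation (p : ℚ̄) := by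
  rcases eq_or_ne x 0 with rfl | hx
  · simp
  obtain ⟨k, hk⟩ := EC.Mult.exists_zpow_of_inertia_fixed hp hP hx fun σ hσ =>
    hfix σ (EC.Mult.mem_decompositionSubgroup_of_mem_inertia hσ)
  have hv0 : 0 < P.valuation (p : ℚ̄) := zero_lt_iff.2 (EC.Mult.valuation_natCast_ne_zero hp)
  have hv1 := EC.Mult.valuation_natCast_lt_one hP
  have hk1 : 1 ≤ k := by
    by_contra hk0
    push Not at hk0
    rw [hk] at h
    exact not_lt.mpr (one_le_zpow_of_nonpos₀ hv0 hv1.le (by omega)) h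
  rw [hk]
  calc P.valuation (p : ℚ̄) ^ k ≤ P.valuation (p : ℚ̄) ^ (1 : ℤ) :=
        zpow_le_zpow_right_of_le_one₀ hv0 hv1.le hk1
    _ = _ := zpow_one _

theorem residue_fixed_sub_natCast (hp : p.Prime) (hP : P.LiesOverPrime p) {x : ℚ̄}
    (hfix : IsFixed P x) (hx : P.valuation x ≤ 1) :
    ∃ r : ℕ, P.valuation (x - r) < 1 := by
  obtain ⟨r, -, hr⟩ := EC.Mult.exists_residue_eq_natCast hp hP
    ((P.valuation_le_one_iff x).mp hx) hfix
  refine ⟨r, ?_⟩
  rw [← map_natCast (IsLocalRing.residue P), EC.Inertia.residue_eq_iff_sub_mem_nonunits] at hr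
  simpa [P.mem_nonunits_iff] using hr

/-- The multiplicative group of the decomposition field modulo `p`-th powers is spanned by `p` and
`1 + p`. -/
theorem exists_eq_zpow_mul_pow (hp : p.Prime) (hp2 : p ≠ 2) (hP : P.LiesOverPrime p) {x : ℚ̄}
    (hx : x ≠ 0) (hfix : IsFixed P x) :
    ∃ (i : ℤ) (j : ℕ) (y : ℚ̄), y ≠ 0 ∧ IsFixed P y ∧
      x = (p : ℚ̄) ^ i * (1 + (p : ℚ̄)) ^ j * y ^ p := by
  have : Fact p.Prime := ⟨hp⟩
  obtain ⟨i, hi⟩ := EC.Mult.exists_zpow_of_inertia_fixed hp hP hx fun σ hσ =>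
    hfix σ (EC.Mult.mem_decompositionSubgroup_of_mem_inertia hσ)
  have hp0 : (p : ℚ̄) ≠ 0 := Nat.cast_ne_zero.mpr hp.ne_zero
  have hvp0 : P.valuation (p : ℚ̄) ≠ 0 := EC.Mult.valuation_natCast_ne_zero hp
  have hvp1 : P.valuation (p : ℚ̄) < 1 := EC.Mult.valuation_natCast_lt_one hP
  set u := x / (p : ℚ̄) ^ i with hu
  have hufix : IsFixed P u := fun σ hσ => by
    rw [hu, map_div₀, hfix σ hσ, map_zpow₀, map_natCast]
  have huval : P.valuation u = 1 := by
    rw [hu, map_div₀, map_zpow₀, hi, div_self (zpow_ne_zero _ hvp0)]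
  -- reduce to a principal unit
  obtain ⟨r, hr⟩ := residue_fixed_sub_natCast hp hP hufix huval.le
  have hrval : P.valuation (r : ℚ̄) = 1 := by
    have h1 : (r : ℚ̄) = u - (u - r) := by ring
    rw [h1, Valuation.map_sub_eq_of_lt_left _ (by rw [huval]; exact hr), huval]
  have hr0 : (r : ℚ̄) ≠ 0 := fun h => by rw [h, map_zero] at hrval; exact zero_ne_one hrval
  have hrp : P.valuation ((r : ℚ̄) ^ p - r) < 1 := by
    obtain ⟨c, hc⟩ : (p : ℤ) ∣ (r : ℤ) ^ p - r := by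
      rw [← ZMod.intCast_zmod_eq_zero_iff_dvd]
      push_cast
      rw [ZMod.pow_card, sub_self]
    have h1 : (r : ℚ̄) ^ p - r = (p : ℚ̄) * (c : ℚ̄) := by
      simpa using congrArg (Int.cast : ℤ → ℚ̄) hc
    rw [h1, map_mul]
    exact lt_of_le_of_lt (mul_le_of_le_one_right zero_le
      ((P.valuation_le_one_iff _).mpr (intCast_mem P c))) hvp1
  set u₁ := u / (r : ℚ̄) ^ p with hu₁
  have hu₁fix : IsFixed P u₁ := fun σ hσ => by
    rw [hu₁, map_div₀, hufix σ hσ, map_pow, map_natCast]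
  have hu₁sub : P.valuation (u₁ - 1) < 1 := by
    have h1 : u₁ - 1 = ((u - r) - ((r : ℚ̄) ^ p - r)) / (r : ℚ̄) ^ p := by
      rw [hu₁]; field_simp; ring
    rw [h1, map_div₀, map_pow, hrval, one_pow, div_one]
    exact lt_of_le_of_lt (Valuation.map_sub _ _ _) (max_lt hr hrp)
  -- the first layer is spanned by `1 + p`
  set t := (u₁ - 1) / (p : ℚ̄) with ht
  have htfix : IsFixed P t := fun σ hσ => by
    rw [ht, map_div₀, map_sub, map_one, hu₁fix σ hσ, map_natCast]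
  have htval : P.valuation t ≤ 1 := by
    rw [ht, map_div₀]
    exact (div_le_one₀ (zero_lt_iff.2 hvp0)).mpr (valuation_le_of_lt_one hp hP
      (fun σ hσ => by rw [map_sub, map_one, hu₁fix σ hσ]) hu₁sub)
  obtain ⟨j, hj⟩ := residue_fixed_sub_natCast hp hP htfix htval
  have hj' : P.valuation (t - j) ≤ P.valuation (p : ℚ̄) :=
    valuation_le_of_lt_one hp hP (fun σ hσ => by rw [map_sub, htfix σ hσ, map_natCast]) hj
  obtain ⟨c, hc⟩ : ∃ c : ℕ, (1 + p) ^ j = 1 + j * p + c * p ^ 2 := by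
    clear hj hj'
    induction j with
    | zero => exact ⟨0, by simp⟩
    | succ n ih =>
      obtain ⟨c, hc⟩ := ih
      exact ⟨c + c * p + n, by rw [pow_succ, hc]; ring⟩
  have hc' : (1 + (p : ℚ̄)) ^ j = 1 + j * p + c * (p : ℚ̄) ^ 2 := by exact_mod_cast hc
  have h1p : P.valuation (1 + (p : ℚ̄)) = 1 := by
    rw [Valuation.map_add_eq_of_lt_left _ (by rwa [map_one]), map_one]
  set u₂ := u₁ / (1 + (p : ℚ̄)) ^ j with hu₂
  have h1p0 : (1 + (p : ℚ̄)) ≠ 0 := fun h => by rw [h, map_zero] at h1p; exact zero_ne_one h1p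
  have hu₁val : P.valuation u₁ = 1 := by
    rw [hu₁, map_div₀, map_pow, huval, hrval, one_pow, div_one]
  have hu₂sub : P.valuation (u₂ - 1) ≤ P.valuation (p : ℚ̄) ^ 2 := by
    have h1 : u₂ - 1 = ((p : ℚ̄) * (t - j) - c * (p : ℚ̄) ^ 2) / (1 + (p : ℚ̄)) ^ j := by
      rw [eq_div_iff (pow_ne_zero j h1p0), hu₂, sub_mul, div_mul_cancel₀ _ (pow_ne_zero j h1p0),
        hc', ht]
      field_simp
      ring
    rw [h1, map_div₀, map_pow, h1p, one_pow, div_one]
    refine (Valuation.map_sub _ _ _).trans (max_le ?_ ?_)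
    · rw [map_mul, sq]
      exact mul_le_mul_right hj' _
    · rw [map_mul, map_pow]
      exact mul_le_of_le_one_left zero_le ((P.valuation_le_one_iff _).mpr (natCast_mem P c))
  obtain ⟨z, hz0, hzfix, hz⟩ := exists_pow_eq_of_sub_one_le hp hp2 hP
    (u := u₂) (by rw [hu₂, map_div₀, map_pow, h1p, one_pow, div_one, hu₁val])
    (fun σ hσ => by rw [hu₂, map_div₀, hu₁fix σ hσ, map_pow, map_add, map_one, map_natCast]) hu₂sub
  refine ⟨i, j, r * z, mul_ne_zero hr0 hz0, fun σ hσ => by rw [map_mul, map_natCast, hzfix σ hσ],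
    ?_⟩
  rw [mul_pow, hz, hu₂, hu₁, hu]
  field_simp

/-- Hilbert 90 for a crossed homomorphism on a subgroup that factors through a finite level. -/
theorem exists_apply_eq_mul {L : IntermediateField ℚ ℚ̄} [FiniteDimensional ℚ L] [Normal ℚ L]
    (H : Subgroup Γℚ) (a : Γℚ → ℚ̄) (ha0 : ∀ σ ∈ H, a σ ≠ 0)
    (hcoc : ∀ σ ∈ H, ∀ τ ∈ H, a (σ * τ) = σ (a τ) * a σ)
    (hlev : ∀ σ ∈ H, ∀ τ ∈ H, (∀ x ∈ L, σ x = τ x) → a σ = a τ) :
    ∃ y : ℚ̄, y ≠ 0 ∧ ∀ σ ∈ H, σ y = a σ * y := by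
  classical
  let res : Γℚ →* (L ≃ₐ[ℚ] L) := AlgEquiv.restrictNormalHom L
  let G : Subgroup (L ≃ₐ[ℚ] L) := H.map res
  have hlift : ∀ g : G, ∃ σ, σ ∈ H ∧ res σ = g := fun g => g.2
  choose lift hliftH hlift using hlift
  have key : ∀ σ ∈ H, ∀ τ ∈ H, res σ = res τ → a σ = a τ := fun σ hσ τ hτ h =>
    hlev σ hσ τ hτ fun x hx => by
      have h1 := AlgEquiv.restrictNormal_commutes σ L ⟨x, hx⟩
      have h2 := AlgEquiv.restrictNormal_commutes τ L ⟨x, hx⟩
      change (res σ ⟨x, hx⟩ : ℚ̄) = σ x at h1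
      change (res τ ⟨x, hx⟩ : ℚ̄) = τ x at h2
      rw [← h1, ← h2, h]
  let χ : G → (L →* ℚ̄) := fun g => (L.val : L →* ℚ̄).comp ((g : L ≃ₐ[ℚ] L) : L →* L)
  have hinj : Function.Injective χ := fun g g' h =>
    Subtype.ext (AlgEquiv.ext fun x => Subtype.ext (DFunLike.congr_fun h x))
  have hli := (linearIndependent_monoidHom L ℚ̄).comp χ hinj
  obtain ⟨z, hz⟩ : ∃ z : L, ∑ g : G, a (lift g) * ((g : L ≃ₐ[ℚ] L) z : L) ≠ 0 := by
    by_contra! hcon
    exact ha0 _ (hliftH 1) (Fintype.linearIndependent_iff.mp hli (fun g => a (lift g))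
      (funext fun z => by simpa [Finset.sum_apply, χ] using hcon z) 1)
  refine ⟨_, inv_ne_zero hz, fun σ hσ => ?_⟩
  let gσ : G := ⟨res σ, σ, hσ, rfl⟩
  have h1 : a σ * σ (∑ g : G, a (lift g) * ((g : L ≃ₐ[ℚ] L) z : L)) =
      ∑ g : G, a (lift g) * ((g : L ≃ₐ[ℚ] L) z : L) := by
    rw [map_sum, Finset.mul_sum]
    refine Fintype.sum_equiv (Equiv.mulLeft gσ) _ _ fun g => ?_
    rw [map_mul, Equiv.coe_mulLeft]
    have h2 : a (lift (gσ * g)) = σ (a (lift g)) * a σ := by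
      rw [← hcoc σ hσ _ (hliftH g)]
      exact key _ (hliftH _) _ (H.mul_mem hσ (hliftH g)) (by rw [map_mul, hlift, hlift]; rfl)
    have h3 : (((gσ * g : G) : L ≃ₐ[ℚ] L) z : ℚ̄) = σ ((g : L ≃ₐ[ℚ] L) z : L) :=
      AlgEquiv.restrictNormal_commutes σ L _
    rw [h2, h3]
    ring
  conv_rhs => rw [← h1, mul_inv, ← mul_assoc, mul_inv_cancel₀ (ha0 σ hσ), one_mul]
  rw [map_inv₀]

/-- The `p`-th power map `ZMod p → μ_p`. -/
def zetaPow (ζ : ℚ̄) (a : ZMod p) : ℚ̄ := ζ ^ a.val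

theorem zetaPow_add [NeZero p] {ζ : ℚ̄} (hζ : ζ ^ p = 1) (a b : ZMod p) :
    zetaPow ζ (a + b) = zetaPow ζ a * zetaPow ζ b := by
  rw [zetaPow, zetaPow, zetaPow, ← pow_add, ZMod.val_add, ← pow_eq_pow_mod _ hζ]

theorem zetaPow_injective [NeZero p] {ζ : ℚ̄} (hζ : IsPrimitiveRoot ζ p) :
    Function.Injective (zetaPow (p := p) ζ) := fun a b h =>
  ZMod.val_injective p (hζ.pow_inj a.val_lt b.val_lt h)

theorem apply_zetaPow [NeZero p] {ζ : ℚ̄} (hζ : ζ ^ p = 1) (σ : Γℚ) (a : ZMod p) :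
    σ (zetaPow ζ a) = zetaPow ζ ((EC.cycloChar p σ : ZMod p) * a) := by
  rw [zetaPow, zetaPow, map_pow, EC.apply_eq_pow_cycloChar p σ hζ, ← pow_mul, ZMod.val_mul,
    ← pow_eq_pow_mod _ hζ]

/-- `κ` is the Kummer cocycle of `β` on the decomposition group. -/
def IsKummer [NeZero p] (P : ValuationSubring ℚ̄) (ζ β : ℚ̄) (κ : Γℚ → ZMod p) : Prop :=
  ∀ σ ∈ P.decompositionSubgroup ℚ, σ β = zetaPow ζ (κ σ) * β

theorem exists_isKummer [NeZero p] {ζ : ℚ̄} (hζ : IsPrimitiveRoot ζ p) {β : ℚ̄} (hβ : β ≠ 0)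
    (hfix : IsFixed P (β ^ p)) : ∃ κ : Γℚ → ZMod p, IsKummer P ζ β κ := by
  classical
  have h : ∀ σ, ∃ a : ZMod p, σ ∈ P.decompositionSubgroup ℚ → σ β = zetaPow ζ a * β := by
    intro σ
    by_cases hσ : σ ∈ P.decompositionSubgroup ℚ
    · have hpow : (σ β / β) ^ p = 1 := by
        rw [div_pow, ← map_pow, hfix σ hσ, div_self (pow_ne_zero p hβ)]
      obtain ⟨i, hi, hieq⟩ := hζ.eq_pow_of_pow_eq_one hpow
      exact ⟨(i : ZMod p), fun _ => by
        rw [zetaPow, ZMod.val_natCast_of_lt hi, hieq, div_mul_cancel₀ _ hβ]⟩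
    · exact ⟨0, fun h => absurd h hσ⟩
  choose κ hκ using h
  exact ⟨κ, hκ⟩

theorem IsKummer.cocycle [NeZero p] {ζ β : ℚ̄} (hζ : IsPrimitiveRoot ζ p) (hβ : β ≠ 0)
    {κ : Γℚ → ZMod p} (hκ : IsKummer P ζ β κ) {σ τ : Γℚ} (hσ : σ ∈ P.decompositionSubgroup ℚ)
    (hτ : τ ∈ P.decompositionSubgroup ℚ) :
    κ (σ * τ) = κ σ + (EC.cycloChar p σ : ZMod p) * κ τ := by
  refine zetaPow_injective hζ (mul_right_cancel₀ hβ ?_)
  rw [← hκ _ (Subgroup.mul_mem _ hσ hτ), AlgEquiv.mul_apply, hκ τ hτ, map_mul,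
    apply_zetaPow hζ.pow_eq_one, hκ σ hσ, zetaPow_add hζ.pow_eq_one]
  ring

/-- Continuous cocycles on the decomposition group at `p` with values in a vector space of
characteristic `p` twisted by the cyclotomic character are spanned, modulo coboundaries, by two
Kummer cocycles. -/
theorem exists_cocycle_eq [NeZero p] (hp : p.Prime) (hp2 : p ≠ 2) (hP : P.LiesOverPrime p) :
    ∃ κ₁ κ₂ : Γℚ → ZMod p,
      (∀ σ ∈ P.decompositionSubgroup ℚ, ∀ τ ∈ P.decompositionSubgroup ℚ,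
        κ₁ (σ * τ) = κ₁ σ + (EC.cycloChar p σ : ZMod p) * κ₁ τ) ∧
      (∀ σ ∈ P.decompositionSubgroup ℚ, ∀ τ ∈ P.decompositionSubgroup ℚ,
        κ₂ (σ * τ) = κ₂ σ + (EC.cycloChar p σ : ZMod p) * κ₂ τ) ∧
      ∀ (k : Type) [Field k] [CharP k p] (u : Γℚ → k),
        (∀ σ ∈ P.decompositionSubgroup ℚ, ∀ τ ∈ P.decompositionSubgroup ℚ,
          u (σ * τ) = u σ + ZMod.castHom (dvd_refl p) k (EC.cycloChar p σ : ZMod p) * u τ) →
        (∃ L : IntermediateField ℚ ℚ̄, FiniteDimensional ℚ L ∧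
          ∀ σ τ : Γℚ, (∀ x ∈ L, σ x = τ x) → u σ = u τ) →
        ∃ c₁ c₂ b : k, ∀ σ ∈ P.decompositionSubgroup ℚ,
          u σ = c₁ * ZMod.castHom (dvd_refl p) k (κ₁ σ) +
            c₂ * ZMod.castHom (dvd_refl p) k (κ₂ σ) +
            b * (ZMod.castHom (dvd_refl p) k (EC.cycloChar p σ : ZMod p) - 1) := by
  have : Fact p.Prime := ⟨hp⟩
  obtain ⟨ζ, hζ⟩ := EC.exists_primitiveRoot_qbar p
  obtain ⟨β₁, hβ₁⟩ := IsAlgClosed.exists_pow_nat_eq (p : ℚ̄) hp.pos
  obtain ⟨β₂, hβ₂⟩ := IsAlgClosed.exists_pow_nat_eq (1 + (p : ℚ̄)) hp.pos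
  have hp0 : (p : ℚ̄) ≠ 0 := Nat.cast_ne_zero.mpr hp.ne_zero
  have h1p : (1 + (p : ℚ̄)) ≠ 0 := by
    rw [← Nat.cast_one, ← Nat.cast_add, Nat.cast_ne_zero]; omega
  have hβ₁0 : β₁ ≠ 0 := fun h => hp0 (by rw [← hβ₁, h, zero_pow hp.ne_zero])
  have hβ₂0 : β₂ ≠ 0 := fun h => h1p (by rw [← hβ₂, h, zero_pow hp.ne_zero])
  obtain ⟨κ₁, hκ₁⟩ := exists_isKummer (P := P) hζ hβ₁0 (by rw [hβ₁]; exact IsFixed.natCast p)
  obtain ⟨κ₂, hκ₂⟩ := exists_isKummer (P := P) hζ hβ₂0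
    (by rw [hβ₂]; exact fun σ _ => by rw [map_add, map_one, map_natCast])
  refine ⟨κ₁, κ₂, fun σ hσ τ hτ => hκ₁.cocycle hζ hβ₁0 hσ hτ,
    fun σ hσ τ hτ => hκ₂.cocycle hζ hβ₂0 hσ hτ, fun k _ _ u hu hlev => ?_⟩
  -- the prime field case
  have scalar : ∀ v : Γℚ → ZMod p,
      (∀ σ ∈ P.decompositionSubgroup ℚ, ∀ τ ∈ P.decompositionSubgroup ℚ,
        v (σ * τ) = v σ + (EC.cycloChar p σ : ZMod p) * v τ) →
      (∃ L : IntermediateField ℚ ℚ̄, FiniteDimensional ℚ L ∧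
        ∀ σ τ : Γℚ, (∀ x ∈ L, σ x = τ x) → v σ = v τ) →
      ∃ c₁ c₂ b : ZMod p, ∀ σ ∈ P.decompositionSubgroup ℚ,
        v σ = c₁ * κ₁ σ + c₂ * κ₂ σ + b * ((EC.cycloChar p σ : ZMod p) - 1) := by
    rintro v hv ⟨L, hL, hvL⟩
    let M := IntermediateField.normalClosure ℚ L ℚ̄
    have : FiniteDimensional ℚ M := normalClosure.is_finiteDimensional ℚ L ℚ̄
    have : Normal ℚ M := normalClosure.normal ℚ L ℚ̄
    obtain ⟨β, hβ0, hβ⟩ := exists_apply_eq_mul (L := M) (P.decompositionSubgroup ℚ)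
      (fun σ => zetaPow ζ (v σ))
      (fun σ _ => pow_ne_zero _ (hζ.ne_zero hp.ne_zero))
      (fun σ hσ τ hτ => by
        rw [hv σ hσ τ hτ, apply_zetaPow hζ.pow_eq_one, zetaPow_add hζ.pow_eq_one, mul_comm])
      (fun σ _ τ _ hστ => congrArg (zetaPow ζ)
        (hvL σ τ fun x hx => hστ x (IntermediateField.le_normalClosure L hx)))
    have hfix : IsFixed P (β ^ p) := fun σ hσ => by
      rw [map_pow, hβ σ hσ, mul_pow, zetaPow, ← pow_mul, mul_comm (v σ).val p, pow_mul,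
        hζ.pow_eq_one, one_pow, one_mul]
    obtain ⟨i, j, y, hy0, hy, heq⟩ :=
      exists_eq_zpow_mul_pow hp hp2 hP (pow_ne_zero p hβ0) hfix
    have hbase : (β₁ ^ i * β₂ ^ j * y) ^ p = β ^ p := by
      rw [heq, mul_pow, mul_pow, ← pow_mul, mul_comm j p, pow_mul, hβ₂, ← zpow_natCast (β₁ ^ i),
        ← zpow_mul, mul_comm i (p : ℤ), zpow_mul, zpow_natCast, hβ₁]
    have hne : β₁ ^ i * β₂ ^ j * y ≠ 0 :=
      mul_ne_zero (mul_ne_zero (zpow_ne_zero _ hβ₁0) (pow_ne_zero _ hβ₂0)) hy0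
    have hratio : (β / (β₁ ^ i * β₂ ^ j * y)) ^ p = 1 := by
      rw [div_pow, hbase, div_self (pow_ne_zero p hβ0)]
    obtain ⟨m, hm, hmeq⟩ := hζ.eq_pow_of_pow_eq_one hratio
    refine ⟨(i : ZMod p), (j : ZMod p), (m : ZMod p), fun σ hσ => zetaPow_injective hζ
      (mul_right_cancel₀ hβ0 ?_)⟩
    have hpow : ∀ (a : ZMod p) (l : ℕ), zetaPow ζ a ^ l = zetaPow ζ ((l : ZMod p) * a) := by
      intro a l
      induction l with
      | zero => simp [zetaPow]
      | succ l ih => rw [pow_succ, ih, ← zetaPow_add hζ.pow_eq_one]; push_cast; ring_nf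
    have hinv : ∀ a : ZMod p, (zetaPow ζ a)⁻¹ = zetaPow ζ (-a) := fun a =>
      inv_eq_of_mul_eq_one_left (by rw [← zetaPow_add hζ.pow_eq_one, neg_add_cancel]; simp [zetaPow])
    have hzpow : ∀ (a : ZMod p) (l : ℤ), zetaPow ζ a ^ l = zetaPow ζ ((l : ZMod p) * a) := by
      intro a l
      cases l with
      | ofNat l => simpa using hpow a l
      | negSucc l => simp [zpow_negSucc, hpow, hinv]; ring_nf
    have hβeq : β = zetaPow ζ (m : ZMod p) * (β₁ ^ i * β₂ ^ j * y) := by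
      rw [zetaPow, ZMod.val_natCast_of_lt hm, hmeq, div_mul_cancel₀ _ hne]
    calc zetaPow ζ (v σ) * β = σ β := (hβ σ hσ).symm
      _ = zetaPow ζ ((EC.cycloChar p σ : ZMod p) * (m : ZMod p)) *
          ((zetaPow ζ (κ₁ σ) * β₁) ^ i * (zetaPow ζ (κ₂ σ) * β₂) ^ j * y) := by
        rw [hβeq, map_mul, map_mul, map_mul, map_zpow₀, map_pow, apply_zetaPow hζ.pow_eq_one,
          hκ₁ σ hσ, hκ₂ σ hσ, hy σ hσ]
      _ = zetaPow ζ ((i : ZMod p) * κ₁ σ + (j : ZMod p) * κ₂ σ +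
          ((EC.cycloChar p σ : ZMod p) - 1) * (m : ZMod p)) * β := by
        rw [hβeq, mul_zpow, mul_pow, hzpow, hpow, zetaPow_add hζ.pow_eq_one,
          zetaPow_add hζ.pow_eq_one]
        have : zetaPow ζ ((EC.cycloChar p σ : ZMod p) * (m : ZMod p)) =
            zetaPow ζ (((EC.cycloChar p σ : ZMod p) - 1) * (m : ZMod p)) * zetaPow ζ (m : ZMod p) := by
          rw [← zetaPow_add hζ.pow_eq_one]; ring_nf
        rw [this]
        ring
      _ = _ := by ring_nf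
  -- reduce to coordinates
  let : Algebra (ZMod p) k := ZMod.algebra k p
  obtain ⟨L, hL, huL⟩ := hlev
  have hfin : (Set.range u).Finite := by
    let M := IntermediateField.normalClosure ℚ L ℚ̄
    have : FiniteDimensional ℚ M := normalClosure.is_finiteDimensional ℚ L ℚ̄
    have : Normal ℚ M := normalClosure.normal ℚ L ℚ̄
    let s := Function.surjInv (AlgEquiv.restrictNormalHom_surjective (F := ℚ) (K₁ := M) (E := ℚ̄))
    refine (Set.finite_range (u ∘ s)).subset ?_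
    rintro _ ⟨σ, rfl⟩
    refine ⟨AlgEquiv.restrictNormalHom M σ, huL _ σ fun x hx => ?_⟩
    have hxM : x ∈ M := IntermediateField.le_normalClosure L hx
    have hs : AlgEquiv.restrictNormalHom M (s (AlgEquiv.restrictNormalHom M σ)) =
        AlgEquiv.restrictNormalHom M σ := Function.surjInv_eq _ _
    have h1 := AlgEquiv.restrictNormal_commutes (s (AlgEquiv.restrictNormalHom M σ)) M ⟨x, hxM⟩
    have h2 := AlgEquiv.restrictNormal_commutes σ M ⟨x, hxM⟩
    exact h1.symm.trans ((congrArg (fun g => algebraMap M ℚ̄ (g ⟨x, hxM⟩)) hs).trans h2)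
  let W := Submodule.span (ZMod p) (Set.range u)
  have : Module.Finite (ZMod p) W := Module.Finite.span_of_finite (ZMod p) hfin
  let b := Module.finBasis (ZMod p) W
  let u' : Γℚ → W := fun σ => ⟨u σ, Submodule.subset_span ⟨σ, rfl⟩⟩
  have hcast : ∀ a : ZMod p, ZMod.castHom (dvd_refl p) k a = algebraMap (ZMod p) k a := fun a => rfl
  choose c₁ c₂ c₃ hc using fun l => scalar (fun σ => b.repr (u' σ) l)
    (fun σ hσ τ hτ => by
      have h : u' (σ * τ) = u' σ + (EC.cycloChar p σ : ZMod p) • u' τ :=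
        Subtype.ext (by
          show u (σ * τ) = u σ + (EC.cycloChar p σ : ZMod p) • u τ
          rw [hu σ hσ τ hτ, hcast, Algebra.smul_def])
      simp [h])
    ⟨L, hL, fun σ τ h => congrArg (fun z => b.repr z l) (Subtype.ext (huL σ τ h))⟩
  refine ⟨∑ l, algebraMap (ZMod p) k (c₁ l) * (b l : k),
    ∑ l, algebraMap (ZMod p) k (c₂ l) * (b l : k),
    ∑ l, algebraMap (ZMod p) k (c₃ l) * (b l : k), fun σ hσ => ?_⟩
  calc u σ = ((∑ l, b.repr (u' σ) l • b l : W) : k) := by rw [b.sum_repr]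
    _ = _ := by
      rw [Submodule.coe_sum, Finset.sum_mul, Finset.sum_mul, Finset.sum_mul,
        ← Finset.sum_add_distrib, ← Finset.sum_add_distrib]
      refine Finset.sum_congr rfl fun l _ => ?_
      simp only [hc l σ hσ, Submodule.coe_smul, Algebra.smul_def, map_add, map_mul, map_sub,
        map_one, hcast]
      ring

end Fermat.Agent.RT.LocalKummer
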