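import Fermat.Agent.RT.Global.EulerFromLocal
import Fermat.Agent.RT.LocalAtP.Kummer
import Fermat.Agent.RT.LocalAtP.StrictOrdinary

/-!
# The tangent bound at `p` for the strict ordinary condition

`localBoundAtP_strictOrdinary`: if every deformation of type `𝒟` has cyclotomic determinant and
is strictly ordinary at `p`, its classes on the decomposition group at `p` form a space of
dimension at most `1 + h⁰(D_p, ad⁰)`: in a basis adapted to the residual line the cocycles are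
`u • E₁₂` with `u` a cyclotomic cocycle, hence combinations of two Kummer cocycles, with one
relation between them when `h⁰ = 0`.
-/

set_option autoImplicit false

noncomputable section

namespace Fermat.Agent.RT

open IsLocalRing Fermat.Agent.Deformation
open Deformation (Mat)

local notation "ℚ̄" => AlgebraicClosure ℚ

variable {k : Type} [Field k]

/-- The constant lift of a matrix to the dual numbers. -/
def constLift : Mat k →+* Mat (DualNumber k) :=
  (TrivSqZeroExt.inlHom k k).mapMatrix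

theorem constLift_mul_liftEntries (r r' : Γ →* Mat k) (Z Z' : Γ → Mat k) (v : (Mat k)ˣ) (g : Γ)
    (hr : r' g = (v : Mat k) * r g * (↑v⁻¹ : Mat k))
    (hZ : Z' g = (v : Mat k) * Z g * (↑v⁻¹ : Mat k)) :
    constLift (v : Mat k) * liftEntries r Z g = liftEntries r' Z' g * constLift (v : Mat k) := by
  have h1 : r' g * (v : Mat k) = (v : Mat k) * r g := by
    rw [hr, mul_assoc, Units.inv_mul, mul_one]
  have h2 : Z' g * r' g * (v : Mat k) = (v : Mat k) * (Z g * r g) := by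
    rw [mul_assoc, h1, hZ]
    simp only [mul_assoc, Units.inv_mul_cancel_left]
  ext i j
  · have h := congrFun (congrFun h1 i) j
    simp [constLift, liftEntries, Matrix.mul_apply, Fin.sum_univ_two] at h ⊢
    linear_combination -h
  · have h := congrFun (congrFun h2 i) j
    simp [constLift, liftEntries, Matrix.mul_apply, Fin.sum_univ_two] at h ⊢
    linear_combination -h

theorem epsUnit_mul_liftEntries (r : Γ →* Mat k) (Z : Γ → Mat k) (X : Mat k) (g : Γ) :
    (epsUnit X : Mat (DualNumber k)) * liftEntries r Z g =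
      liftEntries r (Z + adCoboundary r X) g * (epsUnit X : Mat (DualNumber k)) := by
  have h : (adCoboundary r X g) * r g = X * r g - r g * X := by
    show (X - r g * X * r g⁻¹) * r g = _
    rw [sub_mul, mul_assoc, ← map_mul, inv_mul_cancel, map_one, mul_one]
  ext i j
  · fin_cases i <;> fin_cases j <;> simp [epsUnit, liftEntries, Matrix.mul_apply, Fin.sum_univ_two]
  · have h' := congrFun (congrFun h i) j
    simp [Matrix.mul_apply, Fin.sum_univ_two] at h'
    fin_cases i <;> fin_cases j <;>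
      simp [epsUnit, liftEntries, Matrix.mul_apply, Fin.sum_univ_two] at h' ⊢ <;>
      linear_combination -h'

theorem fst_liftEntries (r : Γ →* Mat k) (Z : Γ → Mat k) (g : Γ) (i j : Fin 2) :
    (liftEntries r Z g i j).fst = r g i j := by
  simp [liftEntries]

theorem snd_liftEntries (r : Γ →* Mat k) (Z : Γ → Mat k) (g : Γ) (i j : Fin 2) :
    (liftEntries r Z g i j).snd = (Z g * r g) i j := by
  simp [liftEntries]

/-- An element with eigenvalues `a ≠ 1` and `1` is triangular, with `a` first, in some basis. -/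
theorem exists_adapted_basis (M : Mat k) (a : k) (ha : a ≠ 1) (htr : M.trace = 1 + a)
    (hdet : M.det = a) :
    ∃ v : (Mat k)ˣ, ((v : Mat k) * M * (↑v⁻¹ : Mat k)) 1 0 = 0 ∧
      ((v : Mat k) * M * (↑v⁻¹ : Mat k)) 0 0 = a := by
  have hM : M - 1 ≠ 0 := fun h => by
    rw [sub_eq_zero] at h
    rw [h, Matrix.trace_one, Fintype.card_fin] at htr
    exact ha (by push_cast at htr; linear_combination -htr)
  obtain ⟨i, j, hij⟩ : ∃ i j, (M - 1) i j ≠ 0 := by
    by_contra! h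
    exact hM (Matrix.ext h)
  set w : Fin 2 → k := fun i => (M - 1) i j with hw
  have hMw : ∀ i, M i 0 * w 0 + M i 1 * w 1 = a * w i := by
    intro i
    rw [Matrix.trace_fin_two] at htr
    rw [Matrix.det_fin_two] at hdet
    simp only [hw, Matrix.sub_apply]
    fin_cases i <;> fin_cases j <;>
      simp only [Fin.zero_eta, Fin.mk_one, Matrix.one_apply] <;> simp
    · linear_combination M 0 0 * htr - hdet
    · linear_combination M 0 1 * htr
    · linear_combination M 1 0 * htr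
    · linear_combination M 1 1 * htr - hdet
  obtain ⟨c, hc⟩ : ∃ c : Fin 2 → k, w 0 * c 1 - c 0 * w 1 ≠ 0 := by
    by_cases h0 : w 0 = 0
    · refine ⟨![1, 0], ?_⟩
      have h1 : w 1 ≠ 0 := fun h1 => by
        fin_cases i
        · exact hij h0
        · exact hij h1
      simp [h0, h1]
    · exact ⟨![0, 1], by simp [h0]⟩
  set W : Mat k := !![w 0, c 0; w 1, c 1] with hW
  have hWu : IsUnit W := (Matrix.isUnit_iff_isUnit_det W).mpr
    (isUnit_iff_ne_zero.mpr (by simpa [W, Matrix.det_fin_two] using hc))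
  obtain ⟨u, hu⟩ := hWu
  have hcol : ∀ i, (M * (u : Mat k)) i 0 = a * (u : Mat k) i 0 := fun i => by
    rw [hu]
    have := hMw i
    fin_cases i <;> simp [W, Matrix.mul_apply, Fin.sum_univ_two] at this ⊢ <;>
      linear_combination this
  have hres : ∀ i, ((↑u⁻¹ : Mat k) * (M * (u : Mat k))) i 0 = a * (1 : Mat k) i 0 := fun i => by
    rw [Matrix.mul_apply, Fin.sum_univ_two, hcol, hcol, ← Units.inv_mul u, Matrix.mul_apply,
      Fin.sum_univ_two]
    ring
  refine ⟨u⁻¹, ?_, ?_⟩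
  · rw [inv_inv, mul_assoc, hres]
    simp
  · rw [inv_inv, mul_assoc, hres]
    simp

variable {p : ℕ} {P : ValuationSubring ℚ̄} {σ₀ : Γ}

/-- The cyclotomic character with values in a field of characteristic `p`. -/
def omegaChar (p : ℕ) [NeZero p] (k : Type) [Field k] [CharP k p] (σ : Γ) : k :=
  ZMod.castHom (dvd_refl p) k (EC.cycloChar p σ : ZMod p)

theorem natCast_exponent_eq [NeZero p] [CharP k p] {σ : Γ} {a : ℕ} (ha : ActsByExp p 1 σ a) :
    (a : k) = omegaChar p k σ := by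
  obtain ⟨ζ, hζ⟩ := EC.exists_primitiveRoot_qbar p
  rw [omegaChar, EC.cycloChar_eq_of_apply_eq_pow p σ hζ
    (ha ζ (by rw [pow_one, hζ.pow_eq_one])), map_natCast]

theorem actsByExp_one_val [NeZero p] (σ : Γ) :
    ActsByExp p 1 σ (EC.cycloChar p σ : ZMod p).val := fun μ hμ => by
  rw [pow_one] at hμ
  exact EC.apply_eq_pow_cycloChar p σ hμ

/-- Normal form of a strictly ordinary lift in an adapted basis: the cocycle is strictly upper
triangular on the decomposition group. -/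
theorem normal_form_of_eqns (hp : p.Prime) [CharP k p]
    {a₀ : ℕ} (hne : (a₀ : k) ≠ 1)
    {r : Γ →* Mat k} {Z : Γ → Mat k} (htr : ∀ g, (Z g).trace = 0)
    (R : Γ →* Mat (DualNumber k)) (hR : ∀ g, R g = liftEntries r Z g)
    (heq : StrictOrdEqns p P σ₀ R)
    (hdet : ∀ (σ : Γ) (a : ℕ), ActsByExp p 1 σ a → (R σ).det = (a : DualNumber k))
    (h10 : r σ₀ 1 0 = 0) (h00 : r σ₀ 0 0 = a₀) (hZ : Z σ₀ 1 0 = 0)
    (h2 : (2 : k) ≠ 0) {σ : Γ} (hσ : σ ∈ P.decompositionSubgroup ℚ) {a : ℕ}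
    (ha : ActsByExp p 1 σ a) :
    r σ 1 0 = 0 ∧ r σ 1 1 ^ 2 = 1 ∧ r σ 0 0 = a * r σ 1 1 ∧
      Z σ 1 0 = 0 ∧ Z σ 1 1 = 0 ∧ Z σ 0 0 = 0 := by
  have : Fact p.Prime := ⟨hp⟩
  have hp0 : ((p ^ 1 : ℕ) : DualNumber k) = 0 := by
    rw [pow_one]
    ext <;> simp [TrivSqZeroExt.fst_natCast]
  set A0 := R σ₀ 0 0
  set B0 := R σ₀ 0 1
  have hu : IsUnit (A0 - 1) := by
    rw [isUnit_dualNumber_iff, TrivSqZeroExt.fst_sub, TrivSqZeroExt.fst_one,
      show A0.fst = r σ₀ 0 0 by rw [← fst_liftEntries r Z σ₀, ← hR], h00]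
    exact sub_ne_zero.mpr hne
  have hR10 : R σ₀ 1 0 = 0 := by
    rw [hR]
    ext
    · rw [fst_liftEntries, h10]; simp
    · rw [snd_liftEntries, Matrix.mul_apply, Fin.sum_univ_two, hZ, h10]; simp
  have hR11 : R σ₀ 1 1 = 1 := by
    have h := heq.trace_eq
    rw [Matrix.trace_fin_two, Matrix.det_fin_two, hR10] at h
    have h' : (A0 - 1) * (R σ₀ 1 1 - 1) = 0 := by linear_combination -h
    exact sub_eq_zero.mp (hu.mul_right_eq_zero.mp h')
  have hdet₀ : (R σ₀).det = A0 := by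
    rw [Matrix.det_fin_two, hR10, hR11]; ring
  have s10 : R σ 1 0 = 0 := by
    have h := congrFun (congrFun (heq.stable σ hσ) 1) 0
    rw [hdet₀] at h
    simp [Matrix.mul_apply, Fin.sum_univ_two, hR10, hR11] at h
    have h' : (A0 - 1) * (R σ 1 0 * (A0 - 1)) = 0 := by
      rw [← h]; ring
    exact hu.mul_left_eq_zero.mp (hu.mul_right_eq_zero.mp h')
  have hratio : R σ 0 0 = (a : DualNumber k) * R σ 1 1 := by
    have h := heq.ratio σ hσ 1 a ha
    rw [hp0, Ideal.span_singleton_eq_bot.mpr rfl, Ideal.mem_bot, hdet₀] at h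
    simp [Matrix.trace_fin_two, Matrix.mul_apply, Fin.sum_univ_two, hR10, hR11, s10] at h
    have h' : (A0 - 1) * (R σ 0 0 - (a : DualNumber k) * R σ 1 1) = 0 := by
      rw [← h]; ring
    exact sub_eq_zero.mp (hu.mul_right_eq_zero.mp h')
  have hsq : R σ 1 1 * R σ 1 1 = 1 := by
    have h := hdet σ a ha
    rw [Matrix.det_fin_two, s10, hratio] at h
    have hau : IsUnit (a : DualNumber k) := by
      rw [isUnit_dualNumber_iff, TrivSqZeroExt.fst_natCast]
      intro h0
      have : NeZero p := ⟨hp.ne_zero⟩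
      rw [natCast_exponent_eq ha, omegaChar, map_eq_zero] at h0
      exact (EC.cycloChar p σ).ne_zero h0
    refine hau.mul_left_cancel ?_
    linear_combination h
  have f10 : r σ 1 0 = 0 := by rw [← fst_liftEntries r Z σ, ← hR, s10]; simp
  have f11 : r σ 1 1 ^ 2 = 1 := by
    have h := congrArg TrivSqZeroExt.fst hsq
    rw [TrivSqZeroExt.fst_mul, hR, fst_liftEntries, TrivSqZeroExt.fst_one] at h
    rw [pow_two, h]
  have f00 : r σ 0 0 = a * r σ 1 1 := by
    have h := congrArg TrivSqZeroExt.fst hratio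
    rwa [TrivSqZeroExt.fst_mul, TrivSqZeroExt.fst_natCast, hR, fst_liftEntries,
      fst_liftEntries] at h
  have hz : r σ 1 1 ≠ 0 := fun h => by rw [h] at f11; simp at f11
  have hx : r σ 0 0 ≠ 0 := by
    rw [f00]
    refine mul_ne_zero ?_ hz
    intro h0
    have : NeZero p := ⟨hp.ne_zero⟩
    rw [natCast_exponent_eq ha, omegaChar, map_eq_zero] at h0
    exact (EC.cycloChar p σ).ne_zero h0
  have z10 : Z σ 1 0 = 0 := by
    have h := congrArg TrivSqZeroExt.snd s10
    rw [hR, snd_liftEntries, Matrix.mul_apply, Fin.sum_univ_two, f10] at h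
    simpa [hx] using h
  have z11 : Z σ 1 1 = 0 := by
    have h := congrArg TrivSqZeroExt.snd hsq
    have hs : (R σ 1 1).snd = Z σ 1 1 * r σ 1 1 := by
      rw [hR, snd_liftEntries, Matrix.mul_apply, Fin.sum_univ_two, z10]; ring
    rw [TrivSqZeroExt.snd_mul, hs, TrivSqZeroExt.snd_one,
      show (R σ 1 1).fst = r σ 1 1 by rw [hR, fst_liftEntries]] at h
    simp at h
    have h' : (2 : k) * (Z σ 1 1 * r σ 1 1 ^ 2) = 0 := by rw [← h]; ring
    rw [f11, mul_one] at h'
    exact (mul_eq_zero.mp h').resolve_left h2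
  refine ⟨f10, f11, f00, z10, z11, ?_⟩
  have := htr σ
  rwa [Matrix.trace_fin_two, z11, add_zero] at this

/-- The upper unipotent generator. -/
def upperE : Mat k := !![0, 1; 0, 0]

/-- A representation in another basis. -/
def conjBasis (v : (Mat k)ˣ) (r : Γ →* Mat k) : Γ →* Mat k where
  toFun g := (v : Mat k) * r g * (↑v⁻¹ : Mat k)
  map_one' := by simp
  map_mul' g h := by simp [mul_assoc]

theorem conjBasis_apply (v : (Mat k)ˣ) (r : Γ →* Mat k) (g : Γ) :
    conjBasis v r g = (v : Mat k) * r g * (↑v⁻¹ : Mat k) := rfl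

/-- The upper unipotent cochains on `H` in the basis `v`. -/
def upperCochain (H : Subgroup Γ) (v : (Mat k)ˣ) : (Γ → k) →ₗ[k] (H → Mat k) where
  toFun f d := f d • ((↑v⁻¹ : Mat k) * upperE * (v : Mat k))
  map_add' f f' := funext fun d => add_smul _ _ _
  map_smul' c f := funext fun d => mul_smul c (f d) _

/-- The upper unipotent cochains on `H` in the basis `v`, modulo coboundaries. -/
def upperClass (rbar : Γ →* Mat k) (H : Subgroup Γ) (v : (Mat k)ˣ) :
    (Γ → k) →ₗ[k] ((H → Mat k) ⧸ LinearMap.range ((resSub H).comp (adCoboundary rbar))) :=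
  (LinearMap.range ((resSub H).comp (adCoboundary rbar))).mkQ.comp (upperCochain H v)

theorem upperClass_congr {rbar : Γ →* Mat k} {H : Subgroup Γ} {v : (Mat k)ˣ} {f f' : Γ → k}
    (h : ∀ σ ∈ H, f σ = f' σ) : upperClass rbar H v f = upperClass rbar H v f' := by
  show Submodule.mkQ _ (upperCochain H v f) = Submodule.mkQ _ (upperCochain H v f')
  congr 1
  funext d
  show f d • ((↑v⁻¹ : Mat k) * upperE * (v : Mat k)) = f' d • _
  rw [h d d.2]

theorem upperClass_eq_zero {rbar : Γ →* Mat k} {H : Subgroup Γ} {v : (Mat k)ˣ} (X : Mat k)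
    {f : Γ → k} (h : ∀ d ∈ H, adCoboundary (conjBasis v rbar) X d = f d • upperE) :
    upperClass rbar H v f = 0 := by
  refine (Submodule.Quotient.mk_eq_zero _).mpr
    (LinearMap.mem_range.mpr ⟨(↑v⁻¹ : Mat k) * X * (v : Mat k), ?_⟩)
  funext d
  show ((↑v⁻¹ : Mat k) * X * (v : Mat k)) -
    rbar d * ((↑v⁻¹ : Mat k) * X * (v : Mat k)) * rbar (d : Γ)⁻¹ = f d • _
  rw [← smul_mul_assoc, ← mul_smul_comm, ← h d d.2]
  show _ = (↑v⁻¹ : Mat k) *
    (X - conjBasis v rbar d * X * conjBasis v rbar (d : Γ)⁻¹) * (v : Mat k)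
  simp only [conjBasis_apply, mul_sub, sub_mul, mul_assoc, Units.inv_mul_cancel_left,
    Units.inv_mul, mul_one]

/-- A cocycle whose lift to the dual numbers satisfies the strict ordinary equations at `σ₀` and
has cyclotomic determinant. -/
structure IsStrictOrdClass (p : ℕ) (P : ValuationSubring ℚ̄) (σ₀ : Γ) (rbar : Γ →* Mat k)
    (Z : Γ → Mat k) : Prop where
  trace_eq : ∀ g, (Z g).trace = 0
  cocycle : ∀ g h, Z (g * h) = Z g + rbar g * Z h * rbar g⁻¹
  level : ∃ L : IntermediateField ℚ ℚ̄, FiniteDimensional ℚ L ∧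
    ∀ g t : Γ, (∀ x ∈ L, t x = x) → rbar (g * t) = rbar g ∧ Z (g * t) = Z g
  lift : ∃ R : Γ →* Mat (DualNumber k), (∀ g, R g = liftEntries rbar Z g) ∧
    StrictOrdEqns p P σ₀ R ∧ ∀ (σ : Γ) (a : ℕ), ActsByExp p 1 σ a → (R σ).det = (a : DualNumber k)

/-- In an adapted basis a strictly ordinary class is `u • E₁₂` modulo coboundaries, with `u` a
cyclotomic cocycle. -/
theorem exists_upperCocycle [CharP k p] (hp : p.Prime) (h2 : (2 : k) ≠ 0) [NeZero p]
    (hσ₀ : σ₀ ∈ P.inertiaSubgroupIn ℚ) {a₀ : ℕ} (ha₀ : ActsByExp p 1 σ₀ a₀) (hne : (a₀ : k) ≠ 1)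
    {rbar : Γ →* Mat k} (v : (Mat k)ˣ) (hv10 : conjBasis v rbar σ₀ 1 0 = 0)
    (hv00 : conjBasis v rbar σ₀ 0 0 = a₀) (hv11 : conjBasis v rbar σ₀ 1 1 = 1)
    {Z : Γ → Mat k} (hZ : IsStrictOrdClass p P σ₀ rbar Z) :
    (∀ σ ∈ P.decompositionSubgroup ℚ, conjBasis v rbar σ 1 0 = 0 ∧
      conjBasis v rbar σ 1 1 ^ 2 = 1 ∧
      conjBasis v rbar σ 0 0 = omegaChar p k σ * conjBasis v rbar σ 1 1) ∧
    (∃ L : IntermediateField ℚ ℚ̄, FiniteDimensional ℚ L ∧
      ∀ σ τ : Γ, (∀ x ∈ L, σ x = τ x) → conjBasis v rbar σ = conjBasis v rbar τ) ∧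
    ∃ u : Γ → k,
      (∀ σ ∈ P.decompositionSubgroup ℚ, ∀ τ ∈ P.decompositionSubgroup ℚ,
        u (σ * τ) = u σ + omegaChar p k σ * u τ) ∧
      (∃ L : IntermediateField ℚ ℚ̄, FiniteDimensional ℚ L ∧
        ∀ σ τ : Γ, (∀ x ∈ L, σ x = τ x) → u σ = u τ) ∧
      (LinearMap.range ((resSub (P.decompositionSubgroup ℚ)).comp (adCoboundary rbar))).mkQ
          (resSub (P.decompositionSubgroup ℚ) Z) =
        upperClass rbar (P.decompositionSubgroup ℚ) v u := by
  have : Fact p.Prime := ⟨hp⟩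
  obtain ⟨R, hR, heq, hdet⟩ := hZ.lift
  have ha0 : (a₀ : k) ≠ 0 := by
    rw [natCast_exponent_eq ha₀, omegaChar, Ne, map_eq_zero]
    exact (EC.cycloChar p σ₀).ne_zero
  set r' := conjBasis v rbar with hr'
  let Z' : Γ → Mat k := fun g => (v : Mat k) * Z g * (↑v⁻¹ : Mat k)
  let c : k := -(Z' σ₀ 1 0) * (1 - (a₀ : k)⁻¹)⁻¹
  let X : Mat k := !![0, 0; c, 0]
  let Z'' : Γ → Mat k := Z' + adCoboundary r' X
  let W : (Mat (DualNumber k))ˣ :=
    epsUnit X * Units.map (constLift (k := k) : Mat k →* Mat (DualNumber k)) v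
  let R'' : Γ →* Mat (DualNumber k) :=
    { toFun := fun g => (W : Mat (DualNumber k)) * R g * (↑W⁻¹ : Mat (DualNumber k))
      map_one' := by simp
      map_mul' := fun g h => by simp [mul_assoc] }
  have hWR : ∀ g, (W : Mat (DualNumber k)) * R g = liftEntries r' Z'' g * W := fun g => by
    show ((epsUnit X : Mat (DualNumber k)) * constLift (v : Mat k)) * R g =
      liftEntries r' Z'' g * ((epsUnit X : Mat (DualNumber k)) * constLift (v : Mat k))
    rw [hR, mul_assoc, constLift_mul_liftEntries rbar r' Z Z' v g (conjBasis_apply v rbar g) rfl,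
      ← mul_assoc, epsUnit_mul_liftEntries, mul_assoc]
  have hR'' : ∀ g, R'' g = liftEntries r' Z'' g := fun g => by
    show (W : Mat (DualNumber k)) * R g * (↑W⁻¹ : Mat (DualNumber k)) = _
    rw [hWR, mul_assoc, Units.mul_inv, mul_one]
  have heq'' : StrictOrdEqns p P σ₀ R'' := heq.conj W fun g => by rw [hR'', hWR]
  have hdet'' : ∀ (σ : Γ) (a : ℕ), ActsByExp p 1 σ a → (R'' σ).det = (a : DualNumber k) :=
    fun σ a ha => (Matrix.det_units_conj W (R σ)).trans (hdet σ a ha)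
  have htr'' : ∀ g, (Z'' g).trace = 0 := fun g => by
    show (Z' g + (X - r' g * X * r' g⁻¹)).trace = 0
    rw [Matrix.trace_add, Matrix.trace_sub, Matrix.trace_mul_cycle (r' g) X (r' g⁻¹), ← map_mul, inv_mul_cancel,
      map_one, one_mul, sub_self, add_zero]
    exact (Matrix.trace_units_conj v (Z g)).trans (hZ.trace_eq g)
  have hinv : r' σ₀⁻¹ 1 0 = 0 ∧ r' σ₀⁻¹ 0 0 = (a₀ : k)⁻¹ := by
    have h := map_mul r' σ₀⁻¹ σ₀
    rw [inv_mul_cancel, map_one] at h
    have e10 := (congrFun (congrFun h 1) 0).symm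
    have e00 := (congrFun (congrFun h 0) 0).symm
    rw [Matrix.mul_apply, Fin.sum_univ_two, hv10, hv00] at e10 e00
    simp [ha0] at e10 e00
    exact ⟨e10, eq_inv_of_mul_eq_one_left e00⟩
  have hZ''10 : Z'' σ₀ 1 0 = 0 := by
    have h1 : (1 : k) - (a₀ : k)⁻¹ ≠ 0 :=
      sub_ne_zero.mpr fun h => hne (inv_eq_one.mp h.symm)
    show Z' σ₀ 1 0 + (X - r' σ₀ * X * r' σ₀⁻¹) 1 0 = 0
    simp [X, Matrix.mul_apply, Fin.sum_univ_two, hinv.2, hv11]
    show Z' σ₀ 1 0 + (c - c * (a₀ : k)⁻¹) = 0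
    rw [← mul_one_sub, inv_mul_cancel_right₀ h1, add_neg_cancel]
  have nf := fun σ hσ => normal_form_of_eqns hp hne htr'' R'' hR'' heq'' hdet'' hv10 hv00
    hZ''10 h2 (σ := σ) hσ (actsByExp_one_val (p := p) σ)
  have hom : ∀ σ : Γ, (((EC.cycloChar p σ : ZMod p).val : ℕ) : k) = omegaChar p k σ :=
    fun σ => natCast_exponent_eq (actsByExp_one_val σ)
  obtain ⟨L, hL, hlev⟩ := hZ.level
  have hlev' : ∀ σ τ : Γ, (∀ x ∈ L, σ x = τ x) → rbar σ = rbar τ ∧ Z σ = Z τ := fun σ τ h => by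
    have ht := hlev σ (σ⁻¹ * τ) fun x hx => by
      rw [AlgEquiv.mul_apply, ← h x hx]; exact σ.symm_apply_apply x
    rw [mul_inv_cancel_left] at ht
    exact ⟨ht.1.symm, ht.2.symm⟩
  refine ⟨fun σ hσ => ⟨(nf σ hσ).1, (nf σ hσ).2.1, (nf σ hσ).2.2.1.trans (by rw [hom])⟩,
    ⟨L, hL, fun σ τ h => by rw [hr', conjBasis_apply, conjBasis_apply, (hlev' σ τ h).1]⟩,
    fun σ => Z'' σ 0 1, ?_, ⟨L, hL, fun σ τ h => ?_⟩, ?_⟩
  · intro σ hσ τ hτ
    have hcoc'' : Z'' (σ * τ) = Z'' σ + r' σ * Z'' τ * r' σ⁻¹ := by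
      show Z' (σ * τ) + (X - r' (σ * τ) * X * r' (σ * τ)⁻¹) =
        Z' σ + (X - r' σ * X * r' σ⁻¹) +
          r' σ * (Z' τ + (X - r' τ * X * r' τ⁻¹)) * r' σ⁻¹
      have hZ' : Z' (σ * τ) = Z' σ + r' σ * Z' τ * r' σ⁻¹ := by
        simp only [Z', hr', conjBasis_apply, hZ.cocycle σ τ, mul_add, add_mul, mul_assoc,
          Units.inv_mul_cancel_left]
      rw [hZ', mul_inv_rev, map_mul, map_mul]
      simp only [mul_add, add_mul, mul_sub, sub_mul, mul_assoc]
      abel
    obtain ⟨e10, e11, e00, -, -, -⟩ := nf σ hσ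
    obtain ⟨-, -, -, g10, g11, g00⟩ := nf τ hτ
    have i10 := (nf σ⁻¹ (inv_mem hσ)).1
    have hz : r' σ 1 1 * r' σ⁻¹ 1 1 = 1 := by
      have h := map_mul r' σ σ⁻¹
      rw [mul_inv_cancel, map_one] at h
      have h11 := (congrFun (congrFun h 1) 1).symm
      rw [Matrix.mul_apply, Fin.sum_univ_two, e10] at h11
      simpa using h11
    show Z'' (σ * τ) 0 1 = _
    rw [hcoc'', Matrix.add_apply]
    simp only [Matrix.mul_apply, Fin.sum_univ_two, g10, g11, g00, e00, hom]
    linear_combination (omegaChar p k σ * Z'' τ 0 1) * hz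
  · have hr1 : rbar σ⁻¹ = rbar τ⁻¹ := by
      have h1 : rbar σ⁻¹ * rbar τ = 1 := by
        rw [← (hlev' σ τ h).1, ← map_mul, inv_mul_cancel, map_one]
      calc rbar σ⁻¹ = rbar σ⁻¹ * (rbar τ * rbar τ⁻¹) := by
            rw [← map_mul, mul_inv_cancel, map_one, mul_one]
        _ = _ := by rw [← mul_assoc, h1, one_mul]
    show (Z' σ + (X - r' σ * X * r' σ⁻¹)) 0 1 = (Z' τ + (X - r' τ * X * r' τ⁻¹)) 0 1
    simp only [Z', hr', conjBasis_apply, (hlev' σ τ h).1, (hlev' σ τ h).2, hr1]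
  · refine (Submodule.Quotient.eq _).mpr
      (LinearMap.mem_range.mpr ⟨-((↑v⁻¹ : Mat k) * X * (v : Mat k)), funext fun d => ?_⟩)
    obtain ⟨-, -, -, g10, g11, g00⟩ := nf (d : Γ) d.2
    have hN : Z'' d = Z'' d 0 1 • upperE := by
      ext i j
      fin_cases i <;> fin_cases j <;> simp [upperE, g10, g11, g00]
    show -((↑v⁻¹ : Mat k) * X * (v : Mat k)) -
        rbar d * -((↑v⁻¹ : Mat k) * X * (v : Mat k)) * rbar (d : Γ)⁻¹ =
      Z d - Z'' d 0 1 • ((↑v⁻¹ : Mat k) * upperE * (v : Mat k))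
    rw [← smul_mul_assoc, ← mul_smul_comm, ← hN]
    show _ = Z d - (↑v⁻¹ : Mat k) * ((v : Mat k) * Z d * (↑v⁻¹ : Mat k) +
      (X - r' d * X * r' (d : Γ)⁻¹)) * (v : Mat k)
    simp only [hr', conjBasis_apply, mul_add, add_mul, mul_sub, sub_mul, mul_neg, neg_mul,
      mul_assoc, Units.inv_mul_cancel_left, Units.inv_mul, mul_one]
    abel

/-- The relation between the two Kummer classes coming from the residual extension class, when
there are no invariants. -/
theorem exists_upperClass_relation (h2 : (2 : k) ≠ 0) (rbar : Γ →* Mat k) (H : Subgroup Γ)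
    (v : (Mat k)ˣ) (om : Γ → k)
    (hnf : ∀ σ ∈ H, conjBasis v rbar σ 1 0 = 0 ∧ conjBasis v rbar σ 1 1 ^ 2 = 1 ∧
      conjBasis v rbar σ 0 0 = om σ * conjBasis v rbar σ 1 1)
    (h0 : commutantSpace rbar H ⊓ traceZero k = ⊥) :
    (∀ σ ∈ H, ∀ τ ∈ H,
      conjBasis v rbar (σ * τ) 0 1 * conjBasis v rbar (σ * τ) 1 1 =
        conjBasis v rbar σ 0 1 * conjBasis v rbar σ 1 1 +
          om σ * (conjBasis v rbar τ 0 1 * conjBasis v rbar τ 1 1)) ∧
    upperClass rbar H v (fun σ => conjBasis v rbar σ 0 1 * conjBasis v rbar σ 1 1) = 0 ∧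
    ¬ ∃ b : k, ∀ σ ∈ H,
      conjBasis v rbar σ 0 1 * conjBasis v rbar σ 1 1 = b * (om σ - 1) := by
  set r' := conjBasis v rbar with hr'
  refine ⟨fun σ hσ τ hτ => ?_, ?_, ?_⟩
  · obtain ⟨h10, hsq, h00⟩ := hnf σ hσ
    obtain ⟨h10', hsq', h00'⟩ := hnf τ hτ
    simp only [map_mul, Matrix.mul_apply, Fin.sum_univ_two, h10, h00]
    linear_combination (om σ * r' τ 0 1 * r' τ 1 1) * hsq + (r' σ 0 1 * r' σ 1 1) * hsq'
  · have h2f : upperClass rbar H v ((2 : k) • fun σ => r' σ 0 1 * r' σ 1 1) = 0 := by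
      refine upperClass_eq_zero !![1, 0; 0, -1] fun d hd => ?_
      obtain ⟨h10, hsq, h00⟩ := hnf d hd
      have hm := map_mul r' d d⁻¹
      rw [mul_inv_cancel, map_one] at hm
      have h10' := (hnf d⁻¹ (H.inv_mem hd)).1
      have e00 := congrFun (congrFun hm 0) 0
      have e11 := congrFun (congrFun hm 1) 1
      have e01 := congrFun (congrFun hm 0) 1
      simp only [Matrix.mul_apply, Fin.sum_univ_two, h10, h10', Matrix.one_apply_eq,
        Matrix.one_apply_ne (show (0 : Fin 2) ≠ 1 by decide), mul_zero, zero_mul, add_zero,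
        zero_add] at e00 e11 e01
      show !![(1 : k), 0; 0, -1] - r' d * !![1, 0; 0, -1] * r' d⁻¹ = _
      ext i j
      fin_cases i <;> fin_cases j <;>
        simp [upperE, Matrix.mul_apply, Fin.sum_univ_two, h10, h10']
      · linear_combination e00
      · have hi : r' d⁻¹ 1 1 = r' d 1 1 := by
          linear_combination (r' d⁻¹ 1 1) * (-hsq) - (r' d 1 1) * e11
        rw [hi] at e01 ⊢
        linear_combination e01
      · linear_combination -e11
    rw [map_smul] at h2f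
    exact (smul_eq_zero.mp h2f).resolve_left h2
  · rintro ⟨b, hb⟩
    let Y : Mat k := !![1, 2 * b; 0, -1]
    have hY : ∀ d ∈ H, r' d * Y = Y * r' d := by
      intro d hd
      obtain ⟨h10, hsq, h00⟩ := hnf d hd
      ext i j
      fin_cases i <;> fin_cases j <;> simp [Y, Matrix.mul_apply, Fin.sum_univ_two, h10, h00]
      linear_combination (-2 * r' d 1 1) * hb d hd + (2 * r' d 0 1) * hsq
    have hmem : (↑v⁻¹ : Mat k) * Y * (v : Mat k) ∈ commutantSpace rbar H ⊓ traceZero k := by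
      refine ⟨fun d hd => ?_, ?_⟩
      · have h := congrArg (fun M => (↑v⁻¹ : Mat k) * M * (v : Mat k)) (hY d hd)
        simpa only [hr', conjBasis_apply, mul_assoc, Units.inv_mul_cancel_left, Units.inv_mul,
          mul_one] using h
      · show ((↑v⁻¹ : Mat k) * Y * (v : Mat k)).trace = 0
        rw [Matrix.trace_units_conj' v Y]
        simp [Y, Matrix.trace_fin_two]
    rw [h0, Submodule.mem_bot] at hmem
    have hY0 := congrArg (fun M => (v : Mat k) * M * (↑v⁻¹ : Mat k)) hmem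
    simp only [mul_assoc, Units.mul_inv_cancel_left, Units.mul_inv, mul_one, mul_zero,
      zero_mul] at hY0
    exact one_ne_zero (α := k) (by simpa [Y] using congrFun (congrFun hY0 0) 0)

/-- The bound on the classes of strictly ordinary tangent vectors on the decomposition group. -/
theorem finrank_localClasses_le (hp : p.Prime) (hp2 : p ≠ 2) [CharP k p]
    (rbar : Γ →* Mat k) (P₀ : ValuationSubring ℚ̄) (hP₀ : P₀.LiesOverPrime p)
    (T : Set (Γ → Mat k))
    (hT : ∀ σ₀ ∈ P₀.inertiaSubgroupIn ℚ, ∀ Z ∈ T, IsStrictOrdClass p P₀ σ₀ rbar Z) :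
    FiniteDimensional k
        (localClasses rbar (P₀.decompositionSubgroup ℚ) (Submodule.span k T)) ∧
      Module.finrank k (localClasses rbar (P₀.decompositionSubgroup ℚ) (Submodule.span k T)) ≤
        Module.finrank k ↥(commutantSpace rbar (P₀.decompositionSubgroup ℚ) ⊓ traceZero k) + 1 := by
  classical
  have : NeZero p := ⟨hp.ne_zero⟩
  have : Fact p.Prime := ⟨hp⟩
  rcases Set.eq_empty_or_nonempty T with hempty | ⟨Z₁, hZ₁⟩
  · have hbot : localClasses rbar (P₀.decompositionSubgroup ℚ) (Submodule.span k T) = ⊥ := by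
      rw [localClasses, hempty, Submodule.span_empty, Submodule.map_bot, Submodule.map_bot]
    rw [hbot]
    exact ⟨inferInstance, by simp⟩
  have h2 : (2 : k) ≠ 0 := fun h => by
    have := (CharP.cast_eq_zero_iff k p 2).mp (by exact_mod_cast h)
    exact hp2 ((Nat.prime_dvd_prime_iff_eq hp Nat.prime_two).mp this)
  obtain ⟨σ₀, hσ₀, a₀, ha₀, ha₀ne⟩ := exists_mem_inertia_exponent hp hp2 hP₀
  have hne : (a₀ : k) ≠ 1 := fun h => by
    refine ha₀ne ?_
    have h' : (((a₀ : ℤ) - 1 : ℤ) : k) = 0 := by push_cast; rw [h, sub_self]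
    exact (CharP.intCast_eq_zero_iff k p _).mp h'
  obtain ⟨R₁, hR₁, heq₁, hdet₁⟩ := (hT σ₀ hσ₀ Z₁ hZ₁).lift
  have htr₀ : (rbar σ₀).trace = 1 + (a₀ : k) := by
    have h := congrArg TrivSqZeroExt.fst heq₁.trace_eq
    rw [hdet₁ σ₀ a₀ ha₀, Matrix.trace_fin_two] at h
    simp [hR₁, fst_liftEntries] at h
    rw [Matrix.trace_fin_two, h]
  have hdet₀ : (rbar σ₀).det = (a₀ : k) := by
    have h := congrArg TrivSqZeroExt.fst (hdet₁ σ₀ a₀ ha₀)
    rw [Matrix.det_fin_two] at h
    simp [hR₁, fst_liftEntries] at h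
    rw [Matrix.det_fin_two, h]
  obtain ⟨v, hv10, hv00⟩ := exists_adapted_basis (rbar σ₀) (a₀ : k) hne htr₀ hdet₀
  have hv11 : conjBasis v rbar σ₀ 1 1 = 1 := by
    have h := (Matrix.trace_units_conj v (rbar σ₀)).trans htr₀
    rw [Matrix.trace_fin_two, hv00] at h
    show ((v : Mat k) * rbar σ₀ * (↑v⁻¹ : Mat k)) 1 1 = 1
    linear_combination h
  have key := fun Z hZ => exists_upperCocycle hp h2 hσ₀ ha₀ hne v hv10 hv00 hv11 (hT σ₀ hσ₀ Z hZ)
  set H := P₀.decompositionSubgroup ℚ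
  obtain ⟨hnf, hlevr, -⟩ := key Z₁ hZ₁
  obtain ⟨κ₁, κ₂, -, -, hspan⟩ := LocalKummer.exists_cocycle_eq hp hp2 hP₀
  set Φ := upperClass rbar H v
  set f₁ : Γ → k := fun σ => ZMod.castHom (dvd_refl p) k (κ₁ σ)
  set f₂ : Γ → k := fun σ => ZMod.castHom (dvd_refl p) k (κ₂ σ)
  have hcomb : ∀ f : Γ → k,
      (∀ σ ∈ H, ∀ τ ∈ H, f (σ * τ) = f σ + omegaChar p k σ * f τ) →
      (∃ L : IntermediateField ℚ ℚ̄, FiniteDimensional ℚ L ∧
        ∀ σ τ : Γ, (∀ x ∈ L, σ x = τ x) → f σ = f τ) →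
      ∃ c₁ c₂ : k, Φ f = c₁ • Φ f₁ + c₂ • Φ f₂ ∧
        (c₁ = 0 → c₂ = 0 → ∃ b : k, ∀ σ ∈ H, f σ = b * (omegaChar p k σ - 1)) := by
    intro f hf hlev
    obtain ⟨c₁, c₂, b, h⟩ := hspan k f hf hlev
    refine ⟨c₁, c₂, ?_, fun h1 h2' => ⟨b, fun σ hσ => by rw [h σ hσ, h1, h2']; simp [omegaChar]⟩⟩
    have hb : Φ (fun σ => b * (omegaChar p k σ - 1)) = 0 := by
      refine upperClass_eq_zero (-b • upperE) fun d hd => ?_
      obtain ⟨h10, hsq, h00⟩ := hnf d hd
      have hm := map_mul (conjBasis v rbar) d d⁻¹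
      rw [mul_inv_cancel, map_one] at hm
      have h10' := (hnf d⁻¹ (H.inv_mem hd)).1
      have e11 := congrFun (congrFun hm 1) 1
      simp only [Matrix.mul_apply, Fin.sum_univ_two, h10, Matrix.one_apply_eq, zero_mul,
        zero_add] at e11
      show -b • upperE - conjBasis v rbar d * (-b • upperE) * conjBasis v rbar d⁻¹ = _
      ext i j
      fin_cases i <;> fin_cases j <;>
        simp [upperE, Matrix.mul_apply, Fin.sum_univ_two, h10, h10', h00]
      linear_combination -(b * omegaChar p k d) * e11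
    calc Φ f = Φ (c₁ • f₁ + c₂ • f₂ + fun σ => b * (omegaChar p k σ - 1)) :=
          upperClass_congr fun σ hσ => by rw [h σ hσ]; simp [f₁, f₂, omegaChar]
      _ = _ := by rw [map_add, map_add, map_smul, map_smul, hb, add_zero]
  have hle : localClasses rbar H (Submodule.span k T) ≤ Submodule.span k {Φ f₁, Φ f₂} := by
    rw [localClasses, Submodule.map_span, Submodule.map_span, Submodule.span_le]
    rintro _ ⟨_, ⟨Z, hZ, rfl⟩, rfl⟩
    obtain ⟨-, -, u, hu, hlev, hZu⟩ := key Z hZ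
    obtain ⟨c₁, c₂, hc, -⟩ := hcomb u hu hlev
    rw [SetLike.mem_coe, hZu, hc]
    exact Submodule.add_mem _ (Submodule.smul_mem _ _ (Submodule.subset_span (Set.mem_insert _ _)))
      (Submodule.smul_mem _ _ (Submodule.subset_span (Set.mem_insert_of_mem _ rfl)))
  have : FiniteDimensional k (Submodule.span k {Φ f₁, Φ f₂}) :=
    FiniteDimensional.span_of_finite k ((Set.finite_singleton _).insert _)
  refine ⟨Submodule.finiteDimensional_of_le hle, (Submodule.finrank_mono hle).trans ?_⟩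
  rcases Nat.eq_zero_or_pos (Module.finrank k ↥(commutantSpace rbar H ⊓ traceZero k)) with h0 | h0
  swap
  · have hle2 : Module.finrank k (Submodule.span k {Φ f₁, Φ f₂}) ≤ 2 := by
      have := finrank_span_finset_le_card (R := k)
        ({Φ f₁, Φ f₂} : Finset ((H → Mat k) ⧸ LinearMap.range ((resSub H).comp (adCoboundary rbar))))
      rw [Set.finrank, Finset.coe_pair] at this
      exact this.trans Finset.card_le_two
    omega
  rw [h0, zero_add]
  obtain ⟨hfmul, hf0, hfb⟩ := exists_upperClass_relation h2 rbar H v (omegaChar p k) hnf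
    (Submodule.finrank_eq_zero.mp h0)
  obtain ⟨e₁, e₂, hf, hfe⟩ :=
    hcomb (fun σ => conjBasis v rbar σ 0 1 * conjBasis v rbar σ 1 1) hfmul (by
    obtain ⟨L, hL, h⟩ := hlevr
    exact ⟨L, hL, fun σ τ hστ => by rw [h σ τ hστ]⟩)
  rw [hf0] at hf
  have hne' : e₁ ≠ 0 ∨ e₂ ≠ 0 := by
    by_contra hcon
    rw [not_or, not_not, not_not] at hcon
    exact hfb (hfe hcon.1 hcon.2)
  have hone : ∃ K, Submodule.span k {Φ f₁, Φ f₂} ≤ Submodule.span k {K} := by
    rcases hne' with h | h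
    · refine ⟨Φ f₂, Submodule.span_le.mpr ?_⟩
      rintro x (rfl | rfl)
      · refine Submodule.mem_span_singleton.mpr ⟨-(e₁⁻¹ * e₂), ?_⟩
        have h' := congrArg (fun z => e₁⁻¹ • z) hf
        simp only [smul_zero, smul_add, smul_smul, inv_mul_cancel₀ h, one_smul] at h'
        rw [neg_smul, eq_comm, eq_neg_iff_add_eq_zero, ← h']
      · exact Submodule.mem_span_singleton_self _
    · refine ⟨Φ f₁, Submodule.span_le.mpr ?_⟩
      rintro x (rfl | rfl)
      · exact Submodule.mem_span_singleton_self _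
      · refine Submodule.mem_span_singleton.mpr ⟨-(e₂⁻¹ * e₁), ?_⟩
        have h' := congrArg (fun z => e₂⁻¹ • z) hf
        simp only [smul_zero, smul_add, smul_smul, inv_mul_cancel₀ h, one_smul] at h'
        rw [neg_smul, eq_comm, eq_neg_iff_add_eq_zero, add_comm, ← h']
  obtain ⟨K, hK⟩ := hone
  refine (Submodule.finrank_mono hK).trans ?_
  by_cases hK0 : K = 0
  · rw [hK0, Submodule.span_zero_singleton]; simp
  · rw [finrank_span_singleton hK0]

section Bound

variable {𝒪 : Type} [CommRing 𝒪] [IsLocalRing 𝒪]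

/-- The bound `dim L_p ≤ 1 + h⁰(D_p, ad⁰)` for conditions implying the strict ordinary condition
with cyclotomic determinant. -/
theorem localBoundAtP_strictOrdinary (hp : p.Prime) (hp2 : p ≠ 2)
    (hp𝒪 : (p : 𝒪) ∈ maximalIdeal 𝒪) (rbar : Γ →* Mat (ResidueField 𝒪))
    (𝒟 : Finset ℕ → ∀ ⦃A : Type⦄ [CommRing A] [IsLocalRing A] [Algebra 𝒪 A],
      GaloisRepAdic A → Prop)
    (h𝒟 : ∀ (Q : Finset ℕ) (ρ : GaloisRepAdic (DualNumber (ResidueField 𝒪))), 𝒟 Q ρ →
      ρ.DetIsCyclotomic p ∧ ρ.IsStrictOrdinaryAt p)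
    (P₀ : ValuationSubring ℚ̄) (hP₀ : P₀.LiesOverPrime p) :
    LocalBoundAtP rbar 𝒟 P₀ := by
  intro Q
  have hpk : (p : ResidueField 𝒪) = 0 := by
    rw [← map_natCast (residue 𝒪), residue_eq_zero_iff]; exact hp𝒪
  have : CharP (ResidueField 𝒪) p := (CharP.charP_iff_prime_eq_zero hp).mpr hpk
  refine finrank_localClasses_le hp hp2 rbar P₀ hP₀ _ fun σ₀ hσ₀ Z hZ => ?_
  have hlev := exists_finiteLevel_of_mem_tangentSet hZ
  obtain ⟨htr, hcoc, R, hR, hRZ, hD⟩ := hZ
  obtain ⟨hdet, hord⟩ := h𝒟 Q _ hD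
  refine ⟨htr, hcoc, hlev, R, hRZ, ?_, fun σ a ha => ?_⟩
  · have := StrictOrdEqns.of_hasStrictLine _ hσ₀ (stdBasis R hR) (hord.2 P₀ hP₀)
    rwa [matOf_repOf] at this
  · have h := hdet.2 1 σ a ha
    rw [pow_one, show ((p : ℕ) : DualNumber (ResidueField 𝒪)) = 0 by ext <;> simp,
      Ideal.span_singleton_eq_bot.mpr rfl, Ideal.mem_bot, sub_eq_zero] at h
    rw [← h, ← DFunLike.congr_fun (matOf_repOf R hR) σ, matOf_apply, LinearMap.det_toMatrix]

end Bound

end Fermat.Agent.RT
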